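import Fermat.Agent.Period.Injective
import Fermat.Prelude.Def_CuspForm_HeckeAlgebra

/-!
Finiteness of the Hecke algebra over `ℤ`.
-/

set_option autoImplicit false

open UpperHalfPlane hiding I
open Filter Topology Complex MeasureTheory Set Matrix.SpecialLinearGroup
open scoped Manifold MatrixGroups ModularForm

namespace Fermat.Agent.Period

noncomputable section

variable {Γ : Subgroup (GL (Fin 2) ℝ)} [Γ.IsArithmetic] [Γ.HasDetOne] {w : ℕ}

lemma latt_separates (f : CuspForm Γ ((w:ℤ) + 2)) (hf : ∀ m ∈ latt Γ w, m f = 0) : f = 0 := by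
  apply eq_zero_of_per_eq_zero
  intro γ P hP
  induction hP using Submodule.span_induction with
  | mem P hP =>
    obtain ⟨j, hj, rfl⟩ := hP
    obtain ⟨m, hm, e⟩ := rep_all (Γ := Γ) γ 1 (mono_mem (R := ℤ) hj)
    have := e f
    rw [hf m hm] at this
    simpa using this.symm
  | zero => simp [per, prim_zero]
  | add P Q hP hQ h1 h2 =>
    rw [mul_add, per_add (good_cuspForm f P hP).decays (good_cuspForm f Q hQ).decays
      (good_cuspForm f P hP γ) (good_cuspForm f Q hQ γ), h1, h2, add_zero]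
  | smul r P hP h1 =>
    rw [mul_smul_comm, per_const_smul (det_mapGL_pos _), h1, mul_zero]

lemma isIntPos_heckeMatrix {p : ℕ} (hp : p ≠ 0) (j : ℕ) : IsIntPos (ModularForm.heckeMatrix p j) := by
  refine ⟨!![1, (j : ℤ); 0, (p : ℤ)], ?_, ?_⟩
  · rw [Matrix.det_fin_two_of]
    have := Nat.pos_of_ne_zero hp
    simp
    omega
  · rw [ModularForm.val_heckeMatrix hp]
    ext i j
    fin_cases i <;> fin_cases j <;> simp

lemma isIntPos_heckeDiagMatrix {p : ℕ} (hp : p ≠ 0) : IsIntPos (ModularForm.heckeDiagMatrix p) := by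
  refine ⟨!![(p : ℤ), 0; 0, 1], ?_, ?_⟩
  · rw [Matrix.det_fin_two_of]
    have := Nat.pos_of_ne_zero hp
    simp
    omega
  · rw [ModularForm.val_heckeDiagMatrix hp]
    ext i j
    fin_cases i <;> fin_cases j <;> simp

theorem finite_heckeAlgebra_of_two_le (N : ℕ) [NeZero N] (w : ℕ) (S : Set ℕ) :
    Module.Finite ℤ (CuspForm.heckeAlgebra N ((w:ℤ) + 2) S) := by
  refine finite_adjoin_of_functionals
    (latt (CongruenceSubgroup.Gamma0 N : Subgroup (GL (Fin 2) ℝ)) w) latt_fg latt_separates _ ?_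
  rintro T (⟨ℓ, hℓ, hℓN, -, rfl⟩ | ⟨q, hqN, hq, -, rfl⟩) m hm
  · refine comp_mem_latt (Finset.range (ℓ + 1))
      (fun j => if j < ℓ then ModularForm.heckeMatrix ℓ j else ModularForm.heckeDiagMatrix ℓ)
      (fun j _ => ?_) _ (fun f => ?_) hm
    · split_ifs
      · exact isIntPos_heckeMatrix hℓ.ne_zero _
      · exact isIntPos_heckeDiagMatrix hℓ.ne_zero
    · rw [CuspForm.coe_heckeTLin_apply, ModularForm.heckeT_def, Finset.sum_range_succ]
      congr 1
      · refine Finset.sum_congr rfl fun j hj => ?_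
        rw [if_pos (Finset.mem_range.mp hj)]
      · rw [if_neg (lt_irrefl _)]
  · refine comp_mem_latt (Finset.range q) (fun j => ModularForm.heckeMatrix q j)
      (fun j _ => isIntPos_heckeMatrix hq.ne_zero _) _ (fun f => ?_) hm
    rw [CuspForm.coe_heckeULin_apply, ModularForm.heckeU_def]

lemma cuspForm_Gamma0_eq_zero_of_lt_two (N : ℕ) [NeZero N] {k : ℤ} (hk : k < 2)
    (f : CuspForm (CongruenceSubgroup.Gamma0 N) k) : f = 0 := by
  rcases le_or_gt k 0 with h0 | h0
  · exact cuspForm_eq_zero_of_nonpos h0 f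
  · obtain rfl : k = 1 := by omega
    have hmem : (-1 : GL (Fin 2) ℝ) ∈ (CongruenceSubgroup.Gamma0 N : Subgroup (GL (Fin 2) ℝ)) := by
      refine ⟨-1, ?_, ?_⟩
      · show (-1 : SL(2, ℤ)) ∈ CongruenceSubgroup.Gamma0 N
        rw [CongruenceSubgroup.Gamma0_mem]
        simp
      · ext i j
        fin_cases i <;> fin_cases j <;> simp [mapGL_coe_matrix]
    have h := ModularForm.eq_zero_of_neg_one_mem hmem odd_one (ModularFormClass.modularForm f)
    ext z
    exact DFunLike.congr_fun h z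

theorem finite_heckeAlgebra (N : ℕ) [NeZero N] (k : ℤ) (S : Set ℕ) :
    Module.Finite ℤ (CuspForm.heckeAlgebra N k S) := by
  rcases lt_or_ge k 2 with hk | hk
  · have h1 : Subsingleton (CuspForm (CongruenceSubgroup.Gamma0 N) k) :=
      ⟨fun f g => by
        rw [cuspForm_Gamma0_eq_zero_of_lt_two N hk f, cuspForm_Gamma0_eq_zero_of_lt_two N hk g]⟩
    have h2 : Subsingleton (Module.End ℂ (CuspForm (CongruenceSubgroup.Gamma0 N) k)) := inferInstance
    have h3 : Subsingleton (CuspForm.heckeAlgebra N k S) := inferInstance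
    exact Module.Finite.of_finite
  · obtain ⟨w, rfl⟩ : ∃ w : ℕ, k = (w:ℤ) + 2 := ⟨(k - 2).toNat, by omega⟩
    exact finite_heckeAlgebra_of_two_le N w S

end

end Fermat.Agent.Period
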