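import Fermat.Agent.Period.Injective
import Fermat.Prelude.Def_ModularCurve_PeriodHomPair

/-!
Existence of equivariant primitives, linearity of the period map, and vanishing on parabolic
elements: the "easy" analytic part of weight-2 Eichler–Shimura.
-/

set_option autoImplicit false

open UpperHalfPlane hiding I
open Filter Topology Complex MeasureTheory Set Matrix.SpecialLinearGroup CongruenceSubgroup
open scoped Manifold MatrixGroups ModularForm

namespace Fermat.Agent.Period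

noncomputable section

lemma isZeroAtImInfty_prim {φ : ℍ → ℂ} {C c A : ℝ} (hc : 0 < c)
    (hb : ∀ τ : ℍ, A ≤ τ.im → ‖φ τ‖ ≤ C * Real.exp (-c * τ.im)) :
    Tendsto (prim φ) atImInfty (𝓝 0) := by
  have key : ∀ z : ℍ, A ≤ z.im → ‖prim φ z‖ ≤ C / c * Real.exp (-c * z.im) := by
    intro z hz
    refine norm_prim_le z hc fun t ht => ?_
    have hpos : 0 < z.im + t := by linarith [z.im_pos]
    have h1 := hb (pt z.re (z.im + t)) (by rw [pt_im hpos]; linarith)
    rwa [pt_im hpos] at h1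
  have h0 : Tendsto (fun z : ℍ => C / c * Real.exp (-c * z.im)) atImInfty (𝓝 0) := by
    have h1 : Tendsto (fun z : ℍ => c * z.im) atImInfty atTop :=
      (tendsto_comap : Tendsto UpperHalfPlane.im atImInfty atTop).const_mul_atTop hc
    have := Real.tendsto_exp_neg_atTop_nhds_zero.comp h1
    simpa [Function.comp_def, neg_mul] using this.const_mul (C / c)
  refine squeeze_zero_norm' ?_ h0
  rw [Filter.Eventually, atImInfty_mem]
  exact ⟨A, fun z hz => key z hz⟩

lemma tendsto_prim_slash {Γ : Subgroup (GL (Fin 2) ℝ)} [Γ.IsArithmetic] (f : CuspForm Γ 2)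
    (γ : SL(2, ℤ)) : Tendsto (prim ((f : ℍ → ℂ) ∣[(2:ℤ)] (mapGL ℝ γ))) atImInfty (𝓝 0) := by
  obtain ⟨C, c, A, hc, hC, hb⟩ := bound_slash_cuspForm f γ
  exact isZeroAtImInfty_prim hc hb

lemma tendsto_prim_cuspForm {Γ : Subgroup (GL (Fin 2) ℝ)} [Γ.IsArithmetic] (f : CuspForm Γ 2) :
    Tendsto (prim (f : ℍ → ℂ)) atImInfty (𝓝 0) := by
  simpa using tendsto_prim_slash f 1

lemma adm_cuspForm {Γ : Subgroup (GL (Fin 2) ℝ)} [Γ.IsArithmetic] (f : CuspForm Γ 2) :
    Adm (f : ℍ → ℂ) := fun γ => decays_slash_cuspForm f γ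

lemma prim_SL_smul {ψ : ℍ → ℂ} (h : Adm ψ) (γ : SL(2, ℤ)) (τ : ℍ) :
    prim ψ (γ • τ) = prim (ψ ∣[(2:ℤ)] (mapGL ℝ γ)) τ + per ψ (mapGL ℝ γ) :=
  prim_smul_eq (det_mapGL_pos γ) h.decays (h γ) τ

/-- `prim f` is an equivariant primitive of the weight 2 cusp form `f`. -/
theorem hasEquivariantPrimitive_prim (N : ℕ) [NeZero N] (f : CuspForm (Gamma0 N) 2) :
    ModularCurve.HasEquivariantPrimitive N f (prim (f : ℍ → ℂ)) := by
  refine ⟨hasDerivAt_prim (adm_cuspForm f).decays, tendsto_prim_cuspForm f, ?_, ?_⟩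
  · intro γ
    refine ⟨per (f : ℍ → ℂ) (mapGL ℝ (γ : SL(2, ℤ))), fun z => ?_⟩
    rw [prim_SL_smul (adm_cuspForm f),
      SlashInvariantFormClass.slash_action_eq f _ (Subgroup.mem_map_of_mem _ γ.2)]
    ring
  · intro δ
    refine ⟨0 + per (f : ℍ → ℂ) (mapGL ℝ δ), ?_⟩
    have := (tendsto_prim_slash f δ).add_const (per (f : ℍ → ℂ) (mapGL ℝ δ))
    exact this.congr fun w => (prim_SL_smul (adm_cuspForm f) δ w).symm

/-- uniqueness of equivariant primitives -/
theorem hasEquivariantPrimitive_unique (N : ℕ) [NeZero N] (f : CuspForm (Gamma0 N) 2)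
    {F : ℍ → ℂ} (hF : ModularCurve.HasEquivariantPrimitive N f F) : F = prim (f : ℍ → ℂ) := by
  refine eq_prim (adm_cuspForm f).decays hF.1 (x := 0) ?_
  refine hF.2.1.comp ?_
  rw [atImInfty, tendsto_comap_iff]
  refine tendsto_id.congr' ?_
  filter_upwards [eventually_gt_atTop 0] with T hT
  simp [pt_im hT]

/-- The Prelude period map is `f ↦ per f`. -/
theorem periodMap_apply (N : ℕ) [NeZero N] (f : CuspForm (Gamma0 N) 2) (γ : Gamma0 N) :
    ModularCurve.periodMap N f (Additive.ofMul γ) =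
      per (f : ℍ → ℂ) (mapGL ℝ (γ : SL(2, ℤ))) := by
  obtain ⟨F₀, h₀, e⟩ := ModularCurve.periodMap_def N f (hasEquivariantPrimitive_prim N f)
  obtain rfl := hasEquivariantPrimitive_unique N f h₀
  rw [e, ModularCurve.Period.IsEquivariantPrimitive.periodHom_apply,
    ModularCurve.Period.IsEquivariantPrimitive.period, per,
    SlashInvariantFormClass.slash_action_eq f _ (Subgroup.mem_map_of_mem _ γ.2)]
  rfl

/-- bundled linear period map -/
def periodMapLin (N : ℕ) [NeZero N] :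
    CuspForm (Gamma0 N) 2 →ₗ[ℂ] (Additive (Gamma0 N) →+ ℂ) where
  toFun f := ModularCurve.periodMap N f
  map_add' f g := by
    refine AddMonoidHom.ext fun γ => ?_
    obtain ⟨γ, rfl⟩ := Additive.ofMul.surjective γ
    rw [AddMonoidHom.add_apply, periodMap_apply, periodMap_apply, periodMap_apply,
      FunLike.coe_add, per_add (adm_cuspForm f).decays (adm_cuspForm g).decays
        (adm_cuspForm f _) (adm_cuspForm g _)]
  map_smul' c f := by
    refine AddMonoidHom.ext fun γ => ?_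
    obtain ⟨γ, rfl⟩ := Additive.ofMul.surjective γ
    show ModularCurve.periodMap N (c • f) (Additive.ofMul γ) =
      c • ModularCurve.periodMap N f (Additive.ofMul γ)
    rw [periodMap_apply, periodMap_apply, FunLike.coe_smul,
      per_const_smul (det_mapGL_pos _), smul_eq_mul]

@[simp] lemma periodMapLin_apply (N : ℕ) [NeZero N] (f : CuspForm (Gamma0 N) 2) :
    periodMapLin N f = ModularCurve.periodMap N f := rfl

theorem existsPeriodMapLinear (N : ℕ) [NeZero N] : ModularCurve.ExistsPeriodMapLinear N :=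
  ⟨periodMapLin N, fun _ => rfl⟩

/-- explicit formula for `periodHomPair`. -/
theorem periodHomPair_eq (N : ℕ) [NeZero N] :
    ModularCurve.periodHomPair N = LinearMap.coprod
        ((LinearMap.id + ModularCurve.Period.charInvolution N ℂ ℂ) ∘ₗ periodMapLin N)
        ((LinearMap.id - ModularCurve.Period.charInvolution N ℂ ℂ) ∘ₗ periodMapLin N) := by
  obtain ⟨pml, hpml, e⟩ := ModularCurve.periodHomPair_def N (existsPeriodMapLinear N)
  have : pml = periodMapLin N := by
    ext1 f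
    rw [hpml]; rfl
  rw [e, this]

/-- an element of `SL(2,ℤ)` with `trace² = 4` is conjugate to an upper triangular one. -/
lemma exists_conj_upper (γ : SL(2, ℤ)) (h : (γ : Matrix (Fin 2) (Fin 2) ℤ).trace ^ 2 = 4) :
    ∃ δ : SL(2, ℤ), (δ⁻¹ * γ * δ) 1 0 = 0 := by
  by_cases hc : γ 1 0 = 0
  · exact ⟨1, by simpa using hc⟩
  set a := γ 0 0 with ha
  set b := γ 0 1 with hb
  set c := γ 1 0 with hc'
  set d := γ 1 1 with hd
  have hdet : a * d - b * c = 1 := by
    have := γ.det_coe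
    rw [Matrix.det_fin_two] at this
    exact this
  have htr : (a + d) ^ 2 = 4 := by
    rw [Matrix.trace_fin_two] at h
    exact h
  have hM : 0 < (!![a - d, -(2 * c); 2 * c, a - d] : Matrix (Fin 2) (Fin 2) ℤ).det := by
    rw [Matrix.det_fin_two_of]
    have : 0 < c ^ 2 := by positivity
    nlinarith [sq_nonneg (a - d)]
  obtain ⟨δ, α, β, ε, hα, hε, e⟩ := exists_hnf _ hM
  have e1 : a - d = δ 0 0 * α := by
    have := congrFun (congrFun e 0) 0
    simpa [Matrix.mul_apply, Fin.sum_univ_two] using this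
  have e2 : 2 * c = δ 1 0 * α := by
    have := congrFun (congrFun e 1) 0
    simpa [Matrix.mul_apply, Fin.sum_univ_two] using this
  refine ⟨δ, ?_⟩
  have key : (δ⁻¹ * γ * δ) 1 0 = - δ 1 0 * (a * δ 0 0 + b * δ 1 0) + δ 0 0 * (c * δ 0 0 + d * δ 1 0) := by
    rw [Matrix.SpecialLinearGroup.coe_mul, Matrix.SpecialLinearGroup.coe_mul,
      Matrix.SpecialLinearGroup.coe_inv, Matrix.adjugate_fin_two, Matrix.mul_apply,
      Fin.sum_univ_two, Matrix.mul_apply, Matrix.mul_apply, Fin.sum_univ_two, Fin.sum_univ_two]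
    simp [ha, hb, hc', hd]
    ring
  rw [key]
  have h2 : α ^ 2 * (- δ 1 0 * (a * δ 0 0 + b * δ 1 0) + δ 0 0 * (c * δ 0 0 + d * δ 1 0)) = 0 := by
    have : α ^ 2 * (- δ 1 0 * (a * δ 0 0 + b * δ 1 0) + δ 0 0 * (c * δ 0 0 + d * δ 1 0)) =
      - (δ 1 0 * α) * (a * (δ 0 0 * α) + b * (δ 1 0 * α)) +
        (δ 0 0 * α) * (c * (δ 0 0 * α) + d * (δ 1 0 * α)) := by ring
    rw [this, ← e1, ← e2]
    have h5 : (a - d) ^ 2 + 4 * (b * c) = 0 := by nlinarith
    linear_combination (-c) * h5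
  rcases mul_eq_zero.mp h2 with h3 | h3
  · exact absurd h3 (pow_ne_zero 2 hα.ne')
  · exact h3

/-- periods vanish on parabolic elements -/
theorem per_parabolic {Γ : Subgroup (GL (Fin 2) ℝ)} [Γ.IsArithmetic] (f : CuspForm Γ 2)
    {γ : SL(2, ℤ)} (hγ : mapGL ℝ γ ∈ Γ)
    (h : (γ : Matrix (Fin 2) (Fin 2) ℤ).trace ^ 2 = 4) : per (f : ℍ → ℂ) (mapGL ℝ γ) = 0 := by
  obtain ⟨δ, hδ⟩ := exists_conj_upper γ h
  have h1 := per_mul_SL (adm_cuspForm f) γ δ
  rw [SlashInvariantFormClass.slash_action_eq f _ hγ] at h1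
  have hup : (mapGL ℝ (δ⁻¹ * γ * δ) : GL (Fin 2) ℝ) 1 0 = 0 := by
    rw [mapGL_coe_matrix]
    simp only [map_apply_coe, RingHom.mapMatrix_apply, Matrix.map_apply, algebraMap_int_eq,
      Int.coe_castRingHom]
    exact_mod_cast hδ
  have h2 := per_mul_upper (adm_cuspForm f) δ (det_mapGL_pos (δ⁻¹ * γ * δ)) hup
  rw [← map_mul, show δ * (δ⁻¹ * γ * δ) = γ * δ by group, h1] at h2
  linear_combination h2

theorem periodMap_mem_parabolicHoms (N : ℕ) [NeZero N] (f : CuspForm (Gamma0 N) 2) :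
    ModularCurve.periodMap N f ∈ ModularCurve.Period.parabolicHoms ℂ (Gamma0 N) ℂ := by
  rw [ModularCurve.Period.mem_parabolicHoms_iff]
  intro γ hγ
  rw [periodMap_apply]
  exact per_parabolic f (Subgroup.mem_map_of_mem _ γ.2) hγ

theorem range_periodHomPair_le (N : ℕ) [NeZero N] :
    LinearMap.range (ModularCurve.periodHomPair N) ≤
      ModularCurve.Period.parabolicHoms ℂ (Gamma0 N) ℂ := by
  rintro _ ⟨⟨f, g⟩, rfl⟩
  rw [periodHomPair_eq]
  simp only [LinearMap.coprod_apply, LinearMap.comp_apply, LinearMap.add_apply,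
    LinearMap.sub_apply, LinearMap.id_apply, periodMapLin_apply]
  have h1 := periodMap_mem_parabolicHoms N f
  have h2 := periodMap_mem_parabolicHoms N g
  exact add_mem (add_mem h1 (ModularCurve.Period.charInvolution_mem_parabolicHoms N ℂ ℂ h1))
    (sub_mem h2 (ModularCurve.Period.charInvolution_mem_parabolicHoms N ℂ ℂ h2))

end

end Fermat.Agent.Period
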