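import Fermat.Agent.Period.Pol

/-!
The lattice of period functionals on a space of cusp forms.
-/

set_option autoImplicit false

open UpperHalfPlane hiding I
open Filter Topology Complex MeasureTheory Set Matrix.SpecialLinearGroup
open scoped Manifold MatrixGroups ModularForm

namespace Fermat.Agent.Period

noncomputable section

section algebra

/-- If a finitely generated `ℤ`-lattice of functionals on `V` is separating and stable under
precomposition with a set of operators, then the `ℤ`-algebra generated is module-finite. -/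
theorem finite_adjoin_of_functionals {V : Type*} [AddCommGroup V] [Module ℂ V]
    (M : Submodule ℤ (Module.Dual ℂ V)) (hfg : M.FG)
    (hsep : ∀ v : V, (∀ m ∈ M, m v = 0) → v = 0)
    (𝒯 : Set (Module.End ℂ V)) (h𝒯 : ∀ T ∈ 𝒯, ∀ m ∈ M, m.comp T ∈ M) :
    Module.Finite ℤ (Algebra.adjoin ℤ 𝒯) := by
  classical
  let A : Subalgebra ℤ (Module.End ℂ V) :=
    { carrier := {T | ∀ m ∈ M, m.comp T ∈ M}
      mul_mem' := by
        intro a b ha hb m hm
        exact hb _ (ha m hm)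
      add_mem' := by
        intro a b ha hb m hm
        rw [LinearMap.comp_add]
        exact add_mem (ha m hm) (hb m hm)
      algebraMap_mem' := by
        intro n m hm
        have : m.comp (algebraMap ℤ (Module.End ℂ V) n) = n • m := by
          ext v
          simp
        rw [this]
        exact Submodule.smul_mem _ _ hm }
  have hA : Algebra.adjoin ℤ 𝒯 ≤ A := Algebra.adjoin_le h𝒯
  obtain ⟨s, hs⟩ := hfg
  have hmem : ∀ m ∈ s, m ∈ M := fun m hm => hs ▸ Submodule.subset_span hm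
  have : IsNoetherian ℤ M := isNoetherian_of_fg_of_noetherian M ⟨s, hs⟩
  let ev : A →ₗ[ℤ] (s → M) :=
    { toFun := fun T m => ⟨(m : Module.Dual ℂ V).comp (T : Module.End ℂ V), T.2 _ (hmem _ m.2)⟩
      map_add' := by
        intro a b
        funext m
        apply Subtype.ext
        exact LinearMap.comp_add _ _ _
      map_smul' := by
        intro n a
        funext m
        apply Subtype.ext
        ext v
        simp }
  have hev : Function.Injective ev := by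
    rw [injective_iff_map_eq_zero]
    intro T hT
    apply Subtype.ext
    ext v
    show (T : Module.End ℂ V) v = 0
    apply hsep
    intro m hm
    rw [← hs] at hm
    induction hm using Submodule.span_induction with
    | mem m hm =>
      have := congrFun hT ⟨m, hm⟩
      have := congrArg Subtype.val this
      exact LinearMap.congr_fun this v
    | zero => rfl
    | add a b _ _ h1 h2 => rw [LinearMap.add_apply, h1, h2, add_zero]
    | smul n a _ h1 => rw [LinearMap.smul_apply, h1, smul_zero]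
  have : Module.Finite ℤ A := Module.Finite.of_injective ev hev
  exact Module.Finite.of_injective (Subalgebra.inclusion hA).toLinearMap
    (Subalgebra.inclusion_injective hA)

end algebra

variable {Γ : Subgroup (GL (Fin 2) ℝ)} [Γ.IsArithmetic] {w : ℕ}

lemma Pol_int_le {P : ℍ → ℂ} (hP : P ∈ Pol ℤ w) : P ∈ Pol ℂ w := by
  induction hP using Submodule.span_induction with
  | mem P hP => exact Submodule.subset_span hP
  | zero => exact zero_mem _
  | add P Q _ _ h1 h2 => exact add_mem h1 h2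
  | smul n P _ h => exact zsmul_mem h n

open ConjAct Pointwise in
lemma decays_slash_cuspForm {k : ℤ} (f : CuspForm Γ k) (γ : SL(2, ℤ)) :
    Decays ((f : ℍ → ℂ) ∣[k] (mapGL ℝ γ)) := by
  have : ((toConjAct (mapGL ℝ γ)⁻¹) • Γ).IsArithmetic := by
    simpa [(show Rat.castHom ℝ = algebraMap ℚ ℝ by rfl), map_inv, map_mapGL]
      using! Subgroup.IsArithmetic.conj Γ (mapGL ℚ γ)⁻¹
  obtain ⟨c, hc, hO⟩ := CuspFormClass.exp_decay_atImInfty' (CuspForm.translate f (mapGL ℝ γ))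
  exact decays_of_isBigO ((CuspFormClass.holo f).slash k (mapGL ℝ γ)) hc hO

lemma good_cuspForm (f : CuspForm Γ ((w:ℤ) + 2)) : Good w f :=
  good_of_decays fun γ => decays_slash_cuspForm f γ

variable [Γ.HasDetOne]

/-- period functional -/
def eFun (Γ : Subgroup (GL (Fin 2) ℝ)) [Γ.IsArithmetic] [Γ.HasDetOne]
    (γ : SL(2, ℤ)) {P : ℍ → ℂ} (hP : P ∈ Pol ℂ w) (h : SL(2, ℤ)) :
    CuspForm Γ ((w:ℤ) + 2) →ₗ[ℂ] ℂ where
  toFun f := per (((f : ℍ → ℂ) ∣[((w:ℤ) + 2)] (mapGL ℝ γ)) * P) (mapGL ℝ h)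
  map_add' f g := by
    have h1 := (good_cuspForm f).slash_SL γ P hP
    have h2 := (good_cuspForm g).slash_SL γ P hP
    rw [← per_add h1.decays h2.decays (h1 h) (h2 h), FunLike.coe_add, SlashAction.add_slash,
      add_mul]
  map_smul' c f := by
    rw [FunLike.coe_smul, slash_const_smul _ _ (det_mapGL_pos γ), smul_mul_assoc,
      per_const_smul (det_mapGL_pos h)]
    rfl

/-- generators of the lattice of period functionals -/
def gens (Γ : Subgroup (GL (Fin 2) ℝ)) [Γ.IsArithmetic] [Γ.HasDetOne] (w : ℕ) :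
    Set (Module.Dual ℂ (CuspForm Γ ((w:ℤ) + 2))) :=
  {m | ∃ γ : SL(2, ℤ), ∃ j ≤ w, ∀ f, m f =
    per (((f : ℍ → ℂ) ∣[((w:ℤ) + 2)] (mapGL ℝ γ)) * mono j) (mapGL ℝ ModularGroup.S)}

/-- lattice of period functionals -/
def latt (Γ : Subgroup (GL (Fin 2) ℝ)) [Γ.IsArithmetic] [Γ.HasDetOne] (w : ℕ) :
    Submodule ℤ (Module.Dual ℂ (CuspForm Γ ((w:ℤ) + 2))) :=
  Submodule.span ℤ (gens Γ w)

lemma finite_gens : (gens Γ w).Finite := by
  classical
  let Γ' : Subgroup SL(2, ℤ) := Γ.comap (mapGL (R := ℤ) ℝ)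
  have : Finite (SL(2, ℤ) ⧸ Γ') := Subgroup.finite_quotient_of_finiteIndex
  let F : (SL(2, ℤ) ⧸ Γ') × Fin (w + 1) → Module.Dual ℂ (CuspForm Γ ((w:ℤ) + 2)) :=
    fun x => eFun Γ (x.1.out)⁻¹ (mono_mem (R := ℂ) (Nat.lt_succ_iff.mp x.2.2)) ModularGroup.S
  refine (Set.finite_range F).subset ?_
  rintro m ⟨γ, j, hj, hm⟩
  refine ⟨(QuotientGroup.mk γ⁻¹, ⟨j, Nat.lt_succ_iff.mpr hj⟩), ?_⟩
  ext f
  rw [hm]
  show per (((f : ℍ → ℂ) ∣[((w:ℤ) + 2)]
    (mapGL ℝ ((QuotientGroup.mk γ⁻¹ : SL(2, ℤ) ⧸ Γ').out)⁻¹)) * mono j)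
    (mapGL ℝ ModularGroup.S) = _
  obtain ⟨δ, hδ⟩ := QuotientGroup.mk_out_eq_mul Γ' γ⁻¹
  rw [hδ]
  have hδ' : mapGL ℝ (δ : SL(2, ℤ))⁻¹ ∈ Γ := by
    have : ((δ : SL(2, ℤ))⁻¹) ∈ Γ' := Γ'.inv_mem δ.2
    exact this
  have e : (f : ℍ → ℂ) ∣[((w:ℤ) + 2)] (mapGL ℝ (γ⁻¹ * (δ : SL(2, ℤ)))⁻¹) =
      (f : ℍ → ℂ) ∣[((w:ℤ) + 2)] (mapGL ℝ γ) := by
    rw [mul_inv_rev, inv_inv, map_mul, SlashAction.slash_mul,
      SlashInvariantFormClass.slash_action_eq f _ hδ']
  rw [e]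

lemma latt_fg : (latt Γ w).FG := Submodule.fg_span finite_gens

/-- a function on cusp forms is represented by an element of the lattice -/
def Rep (Γ : Subgroup (GL (Fin 2) ℝ)) [Γ.IsArithmetic] [Γ.HasDetOne] (w : ℕ)
    (Φ : CuspForm Γ ((w:ℤ) + 2) → ℂ) : Prop := ∃ m ∈ latt Γ w, ∀ f, m f = Φ f

lemma Rep.add {Φ Ψ : CuspForm Γ ((w:ℤ) + 2) → ℂ} (h : Rep Γ w Φ) (h' : Rep Γ w Ψ) :
    Rep Γ w (fun f => Φ f + Ψ f) := by
  obtain ⟨m, hm, e⟩ := h
  obtain ⟨m', hm', e'⟩ := h'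
  exact ⟨m + m', add_mem hm hm', fun f => by rw [LinearMap.add_apply, e, e']⟩

lemma Rep.neg {Φ : CuspForm Γ ((w:ℤ) + 2) → ℂ} (h : Rep Γ w Φ) :
    Rep Γ w (fun f => - Φ f) := by
  obtain ⟨m, hm, e⟩ := h
  exact ⟨-m, neg_mem hm, fun f => by rw [LinearMap.neg_apply, e]⟩

lemma Rep.zsmul {Φ : CuspForm Γ ((w:ℤ) + 2) → ℂ} (h : Rep Γ w Φ) (n : ℤ) :
    Rep Γ w (fun f => n • Φ f) := by
  obtain ⟨m, hm, e⟩ := h
  exact ⟨n • m, Submodule.smul_mem _ _ hm, fun f => by rw [LinearMap.smul_apply, e]⟩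

lemma Rep.zero : Rep Γ w (fun _ => 0) := ⟨0, zero_mem _, fun _ => rfl⟩

lemma Rep.congr {Φ Ψ : CuspForm Γ ((w:ℤ) + 2) → ℂ} (h : Rep Γ w Φ) (e : ∀ f, Ψ f = Φ f) :
    Rep Γ w Ψ := by
  obtain ⟨m, hm, e'⟩ := h
  exact ⟨m, hm, fun f => by rw [e', e]⟩

lemma Rep.sum {ι : Type*} (s : Finset ι) {Φ : ι → CuspForm Γ ((w:ℤ) + 2) → ℂ}
    (h : ∀ i ∈ s, Rep Γ w (Φ i)) : Rep Γ w (fun f => ∑ i ∈ s, Φ i f) := by
  classical
  induction s using Finset.induction_on with
  | empty => simpa using Rep.zero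
  | insert i s hi ih =>
    refine ((h i (Finset.mem_insert_self _ _)).add
      (ih fun j hj => h j (Finset.mem_insert_of_mem hj))).congr fun f => ?_
    rw [Finset.sum_insert hi]

lemma rep_S (γ : SL(2, ℤ)) {P : ℍ → ℂ} (hP : P ∈ Pol ℤ w) :
    Rep Γ w (fun f => per (((f : ℍ → ℂ) ∣[((w:ℤ) + 2)] (mapGL ℝ γ)) * P)
      (mapGL ℝ ModularGroup.S)) := by
  induction hP using Submodule.span_induction with
  | mem P hP =>
    obtain ⟨j, hj, rfl⟩ := hP
    exact ⟨eFun Γ γ (mono_mem hj) ModularGroup.S, Submodule.subset_span ⟨γ, j, hj, fun f => rfl⟩,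
      fun f => rfl⟩
  | zero =>
    refine Rep.zero.congr fun f => ?_
    rw [mul_zero]
    simp [per, prim_zero]
  | add P Q hP hQ h1 h2 =>
    refine (h1.add h2).congr fun f => ?_
    have g1 := (good_cuspForm f).slash_SL γ P (Pol_int_le hP)
    have g2 := (good_cuspForm f).slash_SL γ Q (Pol_int_le hQ)
    rw [mul_add, per_add g1.decays g2.decays (g1 _) (g2 _)]
  | smul n P hP h1 =>
    refine (h1.zsmul n).congr fun f => ?_
    have : (((f : ℍ → ℂ) ∣[((w:ℤ) + 2)] (mapGL ℝ γ)) * n • P) =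
        (n : ℂ) • (((f : ℍ → ℂ) ∣[((w:ℤ) + 2)] (mapGL ℝ γ)) * P) := by
      funext τ
      simp [mul_left_comm]
    rw [this, per_const_smul (det_mapGL_pos _)]
    simp

lemma upper_T : (mapGL ℝ ModularGroup.T : GL (Fin 2) ℝ) 1 0 = 0 := by
  simp [mapGL_coe_matrix, ModularGroup.coe_T]

/-- all `SL(2,ℤ)`-periods are in the lattice -/
lemma rep_all (h : SL(2, ℤ)) : ∀ (γ : SL(2, ℤ)) {P : ℍ → ℂ} (_ : P ∈ Pol ℤ w),
    Rep Γ w (fun f => per (((f : ℍ → ℂ) ∣[((w:ℤ) + 2)] (mapGL ℝ γ)) * P) (mapGL ℝ h)) := by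
  -- cocycle relation
  have coc : ∀ (f : CuspForm Γ ((w:ℤ) + 2)) (γ : SL(2, ℤ)) {P : ℍ → ℂ} (hP : P ∈ Pol ℤ w)
      (h h' : SL(2, ℤ)),
      per (((f : ℍ → ℂ) ∣[((w:ℤ) + 2)] (mapGL ℝ γ)) * P) (mapGL ℝ (h * h')) =
      per (((f : ℍ → ℂ) ∣[((w:ℤ) + 2)] (mapGL ℝ γ)) * P) (mapGL ℝ h) +
      per (((f : ℍ → ℂ) ∣[((w:ℤ) + 2)] (mapGL ℝ (γ * h))) * (P ∣[(-(w:ℤ))] (mapGL ℝ h)))
        (mapGL ℝ h') := by
    intro f γ P hP h h'
    have g1 := (good_cuspForm f).slash_SL γ P (Pol_int_le hP)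
    rw [per_mul_SL g1, mul_slash_SL (w := w), ← SlashAction.slash_mul, ← map_mul]
  have mem : h ∈ Subgroup.closure {ModularGroup.S, ModularGroup.T} := by
    rw [SpecialLinearGroup.SL2Z_generators]; trivial
  have one : ∀ (γ : SL(2, ℤ)) {P : ℍ → ℂ} (hP : P ∈ Pol ℤ w) (f : CuspForm Γ ((w:ℤ) + 2)),
      per (((f : ℍ → ℂ) ∣[((w:ℤ) + 2)] (mapGL ℝ γ)) * P) (mapGL ℝ (1 : SL(2, ℤ))) = 0 := by
    intro γ P hP f
    simp [per]
  induction mem using Subgroup.closure_induction with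
  | mem x hx =>
    rcases hx with rfl | hx
    · intro γ P hP
      exact rep_S γ hP
    · rw [mem_singleton_iff] at hx
      subst hx
      intro γ P hP
      refine Rep.zero.congr fun f => ?_
      have g1 := (good_cuspForm f).slash_SL γ P (Pol_int_le hP)
      exact per_upper (det_mapGL_pos _) upper_T g1.decays (g1 _)
  | one =>
    intro γ P hP
    exact Rep.zero.congr fun f => one γ hP f
  | mul x y _ _ h1 h2 =>
    intro γ P hP
    exact ((h1 γ hP).add (h2 (γ * x) (slash_SL_mem_Pol hP x))).congr fun f => coc f γ hP x y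
  | inv x _ h1 =>
    intro γ P hP
    refine (h1 (γ * x⁻¹) (slash_SL_mem_Pol hP x⁻¹)).neg.congr fun f => ?_
    have e := coc f γ hP x⁻¹ x
    rw [inv_mul_cancel, one γ hP f] at e
    linear_combination -e

/-- periods of translates by integral matrices are in the lattice -/
lemma rep_int {g : GL (Fin 2) ℝ} (hg : IsIntPos g) (h : SL(2, ℤ)) {P : ℍ → ℂ} (hP : P ∈ Pol ℤ w) :
    Rep Γ w (fun f => per (((f : ℍ → ℂ) ∣[((w:ℤ) + 2)] g) * P) (mapGL ℝ h)) := by
  obtain ⟨γ, a, b, d, β, hβ, rfl⟩ := hg.exists_hnf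
  obtain ⟨P', hP', e⟩ := exists_Pol_slash_upper hβ hP
  obtain ⟨γ', a', b', d', β', hβ', e'⟩ := (hβ.isIntPos.mul (isIntPos_mapGL h)).exists_hnf
  refine (rep_all γ' γ hP').congr fun f => ?_
  have g1 := (good_cuspForm f).slash_SL γ P' (Pol_int_le hP')
  rw [SlashAction.slash_mul, e]
  set ψ := ((f : ℍ → ℂ) ∣[((w:ℤ) + 2)] (mapGL ℝ γ)) * P' with hψ
  have d1 : Decays (ψ ∣[(2:ℤ)] β) := g1.decays.slash_upper hβ.det_pos hβ.lower
  have d2 : Decays (ψ ∣[(2:ℤ)] (β * mapGL ℝ h)) := by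
    rw [e']
    exact g1.slash_mul_upper γ' hβ'.det_pos hβ'.lower
  have e1 := per_mul hβ.det_pos (det_mapGL_pos h) g1.decays d1 d2
  rw [per_upper hβ.det_pos hβ.lower g1.decays d1, zero_add, e',
    per_mul_upper g1 γ' hβ'.det_pos hβ'.lower] at e1
  exact e1.symm

/-- Hecke stability of the lattice -/
lemma comp_mem_latt {ι : Type*} (s : Finset ι) (α : ι → GL (Fin 2) ℝ)
    (hα : ∀ i ∈ s, IsIntPos (α i)) (T : Module.End ℂ (CuspForm Γ ((w:ℤ) + 2)))
    (hT : ∀ f, (T f : ℍ → ℂ) = ∑ i ∈ s, (f : ℍ → ℂ) ∣[((w:ℤ) + 2)] (α i))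
    {m : Module.Dual ℂ (CuspForm Γ ((w:ℤ) + 2))} (hm : m ∈ latt Γ w) :
    m.comp T ∈ latt Γ w := by
  induction hm using Submodule.span_induction with
  | mem m hm =>
    obtain ⟨γ, j, hj, e⟩ := hm
    have h1 : Rep Γ w (fun f => ∑ i ∈ s,
        per (((f : ℍ → ℂ) ∣[((w:ℤ) + 2)] (α i * mapGL ℝ γ)) * mono j)
          (mapGL ℝ ModularGroup.S)) :=
      Rep.sum s fun i hi => rep_int ((hα i hi).mul (isIntPos_mapGL γ)) _ (mono_mem hj)
    obtain ⟨m', hm', e'⟩ := h1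
    have : m.comp T = m' := by
      ext f
      rw [e', LinearMap.comp_apply, e, hT]
      have hgood : ∀ i ∈ s, Adm (((f : ℍ → ℂ) ∣[((w:ℤ) + 2)] (α i * mapGL ℝ γ)) * mono j) :=
        fun i hi => (good_cuspForm f).slash_int ((hα i hi).mul (isIntPos_mapGL γ)) _ (mono_mem hj)
      rw [SlashAction.sum_slash, Finset.sum_mul]
      simp only [← SlashAction.slash_mul]
      rw [per, SlashAction.sum_slash, prim_sum _ fun i hi => (hgood i hi).decays,
        prim_sum _ fun i hi => (hgood i hi) _, Finset.sum_apply, Finset.sum_apply,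
        ← Finset.sum_sub_distrib]
      rfl
    rw [this]
    exact hm'
  | zero => rw [LinearMap.zero_comp]; exact zero_mem _
  | add a b _ _ h1 h2 => rw [LinearMap.add_comp]; exact add_mem h1 h2
  | smul n a _ h1 => rw [LinearMap.smul_comp]; exact Submodule.smul_mem _ _ h1

end

end Fermat.Agent.Period
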