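import Fermat.Agent.Period.Functional

/-!
A cusp form all of whose periods vanish is zero.
-/

set_option autoImplicit false

open UpperHalfPlane hiding I
open Filter Topology Complex MeasureTheory Set Matrix.SpecialLinearGroup
open scoped Manifold MatrixGroups ModularForm

namespace Fermat.Agent.Period

noncomputable section

/-- the function `s ↦ (s - z)^m` -/
def shiftPow (m : ℕ) (z : ℍ) : ℍ → ℂ := fun s => ((s : ℂ) - z) ^ m

lemma shiftPow_mem (m : ℕ) (z : ℍ) : shiftPow m z ∈ Pol ℂ m := by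
  have h1 : (fun s : ℍ => (s : ℂ) - z) ∈ Pol ℂ 1 := by
    have : (fun s : ℍ => (s : ℂ) - z) = mono 1 - (z : ℂ) • mono 0 := by
      funext s; simp [mono]
    rw [this]
    exact sub_mem (mono_mem le_rfl) (Submodule.smul_mem _ _ (mono_mem (by omega)))
  have h2 := pow_mem_Pol h1 m
  rw [mul_one] at h2
  exact h2

lemma Decays.tendsto_vert {φ : ℍ → ℂ} (h : Decays φ) (x : ℝ) :
    Tendsto (fun T : ℝ => φ (pt x T)) atTop (𝓝 0) := by
  obtain ⟨C, c, A, m, hc, hC, hA, hb⟩ := h.bound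
  have h0 : Tendsto (fun T : ℝ => C * (1 + |x|) ^ m * Real.exp (-c * T)) atTop (𝓝 0) := by
    have : Tendsto (fun T : ℝ => Real.exp (-c * T)) atTop (𝓝 0) := by
      have h1 : Tendsto (fun T : ℝ => c * T) atTop atTop := tendsto_id.const_mul_atTop hc
      have := Real.tendsto_exp_neg_atTop_nhds_zero.comp h1
      simpa [Function.comp_def, neg_mul] using this
    simpa using this.const_mul (C * (1 + |x|) ^ m)
  refine squeeze_zero_norm' ?_ h0
  filter_upwards [eventually_ge_atTop A] with T hT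
  have hT0 : 0 < T := by linarith
  have := hb (pt x T) (by rw [pt_im hT0]; exact hT)
  rwa [pt_re hT0, pt_im hT0] at this

/-- integration by parts -/
lemma prim_mul_shiftPow {ψ : ℍ → ℂ} (h : Decays ψ) (m : ℕ) (z : ℍ) :
    prim (ψ * shiftPow (m + 1) z) z = -(m + 1 : ℂ) * prim (prim ψ * shiftPow m z) z := by
  have d1 : Decays (ψ * shiftPow (m + 1) z) := h.mul_Pol (shiftPow_mem _ z)
  have d2 : Decays (prim ψ * shiftPow m z) := h.prim.mul_Pol (shiftPow_mem _ z)
  have d3 : Decays (prim ψ * shiftPow (m + 1) z) := h.prim.mul_Pol (shiftPow_mem _ z)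
  have key : (prim ψ * shiftPow (m + 1) z - (m + 1 : ℂ) • prim (prim ψ * shiftPow m z)) =
      prim (ψ * shiftPow (m + 1) z) := by
    refine eq_prim d1 (fun τ => ?_) (x := 0) ?_
    · have e1 := hasDerivAt_prim h τ
      have e2 := (hasDerivAt_prim d2 τ).const_smul (m + 1 : ℂ)
      have e3 : HasDerivAt (fun s : ℂ => (s - z) ^ (m + 1)) ((m + 1 : ℂ) * ((τ : ℂ) - z) ^ m) (τ : ℂ) := by
        have := ((hasDerivAt_id (τ : ℂ)).sub_const (z : ℂ)).pow (m + 1)
        simp only [id_eq, Nat.cast_add, Nat.cast_one, add_tsub_cancel_right, mul_one] at this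
        exact this
      have e4 := (e1.mul e3).sub e2
      have e5 : ψ τ * ((τ : ℂ) - z) ^ (m + 1) +
          (prim ψ ∘ ofComplex) (τ : ℂ) * ((m + 1 : ℂ) * ((τ : ℂ) - z) ^ m) -
          (m + 1 : ℂ) • (prim ψ * shiftPow m z) τ = (ψ * shiftPow (m + 1) z) τ := by
        simp only [Function.comp_apply, ofComplex_apply, Pi.mul_apply, shiftPow, smul_eq_mul]
        ring
      rw [e5] at e4
      refine e4.congr_of_eventuallyEq ?_
      filter_upwards [isOpen_upperHalfPlaneSet.mem_nhds τ.im_pos] with s hs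
      simp [shiftPow, ofComplex_apply_of_im_pos hs]
    · have t1 := d3.tendsto_vert 0
      have t2 := (d2.prim.tendsto_vert 0).const_mul (m + 1 : ℂ)
      have := t1.sub t2
      simpa using this
  have := congrFun key z
  rw [← this]
  simp [shiftPow]
  ring

/-- the Eichler integral -/
def eich (w : ℕ) (φ : ℍ → ℂ) (z : ℍ) : ℂ := prim (φ * shiftPow w z) z

lemma eich_eq {w : ℕ} : ∀ {φ : ℍ → ℂ} (_ : Decays φ),
    eich w φ = ((-1 : ℂ) ^ w * (w.factorial : ℂ)) • (prim^[w + 1] φ) := by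
  induction w with
  | zero =>
    intro φ h
    funext z
    have : φ * shiftPow 0 z = φ := by funext s; simp [shiftPow]
    simp [eich, this]
  | succ w ih =>
    intro φ h
    funext z
    have e1 := congrFun (ih h.prim) z
    rw [eich, prim_mul_shiftPow h, ← eich, e1, Function.iterate_succ_apply (n := w + 1),
      Pi.smul_apply, Pi.smul_apply, smul_eq_mul, smul_eq_mul, Nat.factorial_succ]
    push_cast
    ring

lemma decays_iterate {φ : ℍ → ℂ} (h : Decays φ) (n : ℕ) : Decays (prim^[n] φ) := by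
  induction n with
  | zero => simpa using h
  | succ n ih =>
    rw [Function.iterate_succ_apply']
    exact ih.prim

lemma eq_zero_of_prim_eq_zero {φ : ℍ → ℂ} (h : Decays φ) (h0 : prim φ = 0) : φ = 0 := by
  funext τ
  have h1 := hasDerivAt_prim h τ
  rw [h0] at h1
  have h2 : HasDerivAt ((0 : ℍ → ℂ) ∘ ofComplex) 0 (τ : ℂ) := by
    have : ((0 : ℍ → ℂ) ∘ ofComplex) = fun _ => (0:ℂ) := by funext s; simp
    rw [this]
    exact hasDerivAt_const _ _
  exact h1.unique h2

lemma eq_zero_of_iterate {φ : ℍ → ℂ} (h : Decays φ) (n : ℕ) (h0 : prim^[n] φ = 0) : φ = 0 := by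
  induction n with
  | zero => simpa using h0
  | succ n ih =>
    apply ih
    rw [Function.iterate_succ_apply'] at h0
    exact eq_zero_of_prim_eq_zero (decays_iterate h n) h0

lemma eich_slash {w : ℕ} {φ : ℍ → ℂ} (h : Good w φ) (γ : SL(2, ℤ))
    (hper : ∀ P ∈ Pol ℂ w, per (φ * P) (mapGL ℝ γ) = 0) :
    (eich w φ) ∣[(-(w:ℤ))] (mapGL ℝ γ) = eich w (φ ∣[((w:ℤ) + 2)] (mapGL ℝ γ)) := by
  funext z
  set γz := (mapGL ℝ γ) • z with hγz
  have hd := denom_ne_zero (mapGL ℝ γ) z
  have e0 : (eich w φ ∣[(-(w:ℤ))] (mapGL ℝ γ)) z =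
      eich w φ γz * denom (mapGL ℝ γ) z ^ w := by
    rw [ModularForm.slash_apply]
    simp [σ, hγz]
  have hP := shiftPow_mem w γz
  have e1 : eich w φ γz = prim ((φ * shiftPow w γz) ∣[(2:ℤ)] (mapGL ℝ γ)) z := by
    rw [eich, hγz, prim_smul_eq (det_mapGL_pos γ) (h _ hP).decays (h _ hP γ), hper _ hP, add_zero]
  have e2 : shiftPow w γz ∣[(-(w:ℤ))] (mapGL ℝ γ) =
      ((denom (mapGL ℝ γ) z ^ w)⁻¹ : ℂ) • shiftPow w z := by
    funext s
    have hs := denom_ne_zero (mapGL ℝ γ) s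
    have : (shiftPow w γz ∣[(-(w:ℤ))] (mapGL ℝ γ)) s =
        shiftPow w γz (mapGL ℝ γ • s) * denom (mapGL ℝ γ) s ^ w := by
      rw [ModularForm.slash_apply]
      simp [σ]
    rw [this, shiftPow, Pi.smul_apply, shiftPow, smul_eq_mul, ← _root_.mul_pow, ← inv_pow,
      ← _root_.mul_pow]
    congr 1
    rw [hγz, coe_smul_of_det_pos (det_mapGL_pos γ), coe_smul_of_det_pos (det_mapGL_pos γ)]
    have hdet : num (mapGL ℝ γ) s * denom (mapGL ℝ γ) z - num (mapGL ℝ γ) z * denom (mapGL ℝ γ) s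
        = (s : ℂ) - z := by
      have h1 : ((γ 0 0 : ℤ) : ℂ) * (γ 1 1 : ℤ) - (γ 0 1 : ℤ) * (γ 1 0 : ℤ) = 1 := by
        have := γ.det_coe
        rw [Matrix.det_fin_two] at this
        exact_mod_cast this
      simp only [num, denom, mapGL_coe_matrix, map_apply_coe, RingHom.mapMatrix_apply,
        Matrix.map_apply, algebraMap_int_eq, Int.coe_castRingHom, ofReal_intCast]
      linear_combination ((s : ℂ) - z) * h1
    field_simp
    linear_combination hdet
  rw [e0, e1, mul_slash_SL (w := w), e2, mul_smul_comm, prim_const_smul, Pi.smul_apply, eich,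
    smul_eq_mul]
  field_simp

lemma exists_pow_le_exp (w : ℕ) {c : ℝ} (hc : 0 < c) : ∃ K : ℝ, 0 ≤ K ∧ ∀ t : ℝ, 0 < t →
    t ^ w ≤ K * Real.exp (c * t) := by
  induction w with
  | zero =>
    refine ⟨1, zero_le_one, fun t ht => ?_⟩
    rw [pow_zero, one_mul]
    exact Real.one_le_exp (by positivity)
  | succ w ih =>
    -- use c/2 twice through a generalization
    refine ⟨((w + 1).factorial : ℝ) / c ^ (w + 1), by positivity, fun t ht => ?_⟩
    have h1 := Real.pow_div_factorial_le_exp (c * t) (by positivity) (w + 1)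
    rw [div_le_iff₀ (by positivity), _root_.mul_pow] at h1
    rw [div_mul_eq_mul_div, le_div_iff₀ (by positivity)]
    linarith

lemma isZeroAtImInfty_eich {w : ℕ} {φ : ℍ → ℂ} {C c A : ℝ} (hc : 0 < c) (hC : 0 ≤ C)
    (hb : ∀ τ : ℍ, A ≤ τ.im → ‖φ τ‖ ≤ C * Real.exp (-c * τ.im)) :
    IsZeroAtImInfty (eich w φ) := by
  obtain ⟨K, hK, hKb⟩ := exists_pow_le_exp w (half_pos hc)
  have key : ∀ z : ℍ, A ≤ z.im → ‖eich w φ z‖ ≤ (C * K) / (c / 2) * Real.exp (-(c / 2) * z.im) := by
    intro z hz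
    refine norm_prim_le z (half_pos hc) fun t ht => ?_
    have hpos : 0 < z.im + t := by linarith [z.im_pos]
    have h1 := hb (pt z.re (z.im + t)) (by rw [pt_im hpos]; linarith)
    rw [pt_im hpos] at h1
    have h2 : ‖shiftPow w z (pt z.re (z.im + t))‖ = t ^ w := by
      rw [shiftPow, pt_coe hpos, norm_pow]
      congr 1
      have : ((z.re : ℂ) + ((z.im + t : ℝ) : ℂ) * I - z) = t * I := by
        apply Complex.ext <;> simp
      rw [this, norm_mul, Complex.norm_I, mul_one, Complex.norm_real, Real.norm_of_nonneg ht.le]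
    rw [Pi.mul_apply, norm_mul, h2]
    calc ‖φ (pt z.re (z.im + t))‖ * t ^ w
        ≤ (C * Real.exp (-c * (z.im + t))) * (K * Real.exp (c / 2 * t)) := by
          gcongr
          exact hKb t ht
      _ = C * K * (Real.exp (-c * (z.im + t)) * Real.exp (c / 2 * t)) := by ring
      _ ≤ C * K * Real.exp (-(c / 2) * (z.im + t)) := by
          rw [← Real.exp_add]
          gcongr
          nlinarith [z.im_pos]
  have h0 : Tendsto (fun z : ℍ => (C * K) / (c / 2) * Real.exp (-(c / 2) * z.im)) atImInfty (𝓝 0) := by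
    have h1 : Tendsto (fun z : ℍ => c / 2 * z.im) atImInfty atTop :=
      (tendsto_comap : Tendsto UpperHalfPlane.im atImInfty atTop).const_mul_atTop (half_pos hc)
    have := Real.tendsto_exp_neg_atTop_nhds_zero.comp h1
    simpa [Function.comp_def, neg_mul] using this.const_mul ((C * K) / (c / 2))
  refine squeeze_zero_norm' ?_ h0
  rw [Filter.Eventually, atImInfty_mem]
  exact ⟨A, fun z hz => key z hz⟩

variable {Γ : Subgroup (GL (Fin 2) ℝ)} [Γ.IsArithmetic] {w : ℕ}

open ConjAct Pointwise in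
lemma bound_slash_cuspForm {k : ℤ} (f : CuspForm Γ k) (γ : SL(2, ℤ)) :
    ∃ C c A : ℝ, 0 < c ∧ 0 ≤ C ∧ ∀ τ : ℍ, A ≤ τ.im →
      ‖((f : ℍ → ℂ) ∣[k] (mapGL ℝ γ)) τ‖ ≤ C * Real.exp (-c * τ.im) := by
  have : ((toConjAct (mapGL ℝ γ)⁻¹) • Γ).IsArithmetic := by
    simpa [(show Rat.castHom ℝ = algebraMap ℚ ℝ by rfl), map_inv, map_mapGL]
      using! Subgroup.IsArithmetic.conj Γ (mapGL ℚ γ)⁻¹
  obtain ⟨c, hc, hO⟩ := CuspFormClass.exp_decay_atImInfty' (CuspForm.translate f (mapGL ℝ γ))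
  obtain ⟨C, hC0, hC⟩ := hO.exists_nonneg
  rw [Asymptotics.isBigOWith_iff] at hC
  obtain ⟨A, hA⟩ := (atImInfty_mem _).mp hC
  refine ⟨C, c, A, hc, hC0, fun τ hτ => ?_⟩
  have := hA τ hτ
  simpa using! this

/-- cusp forms of nonpositive weight vanish -/
theorem cuspForm_eq_zero_of_nonpos {k : ℤ} (hk : k ≤ 0) (f : CuspForm Γ k) : f = 0 := by
  rcases hk.lt_or_eq with hk | rfl
  · have h := ModularForm.isZero_of_neg_weight hk (ModularFormClass.modularForm f)
    ext z
    exact DFunLike.congr_fun h z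
  · obtain ⟨c, hc⟩ := ModularForm.eq_const_of_weight_zero (ModularFormClass.modularForm f)
    have hc' : (f : ℍ → ℂ) = Function.const ℍ c := hc
    have h0 : IsZeroAtImInfty (f : ℍ → ℂ) := CuspFormClass.zero_at_infty f
    rw [hc', IsZeroAtImInfty, ZeroAtFilter] at h0
    have h1 : c = 0 := tendsto_nhds_unique tendsto_const_nhds h0
    ext z
    rw [hc', h1]
    rfl

/-- A cusp form whose periods all vanish is zero. -/
theorem eq_zero_of_per_eq_zero (f : CuspForm Γ ((w:ℤ) + 2))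
    (hper : ∀ (γ : SL(2, ℤ)), ∀ P ∈ Pol ℂ w, per ((f : ℍ → ℂ) * P) (mapGL ℝ γ) = 0) :
    f = 0 := by
  have hdec : Decays (f : ℍ → ℂ) := by
    simpa using decays_slash_cuspForm f 1
  have hslash : ∀ γ : SL(2, ℤ), (eich w f) ∣[(-(w:ℤ))] (mapGL ℝ γ) =
      eich w ((f : ℍ → ℂ) ∣[((w:ℤ) + 2)] (mapGL ℝ γ)) :=
    fun γ => eich_slash (good_cuspForm f) γ (hper γ)
  have hzero : ∀ γ : SL(2, ℤ), IsZeroAtImInfty ((eich w f) ∣[(-(w:ℤ))] (mapGL ℝ γ)) := by
    intro γ
    rw [hslash]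
    obtain ⟨C, c, A, hc, hC, hb⟩ := bound_slash_cuspForm f γ
    exact isZeroAtImInfty_eich hc hC hb
  have hholo : MDiff (eich w f) := by
    rw [eich_eq hdec]
    exact (decays_iterate hdec (w + 1)).holo.const_smul _
  let F : CuspForm (Γ ⊓ 𝒮ℒ) (-(w:ℤ)) :=
    { toFun := eich w f
      slash_action_eq' := by
        intro g hg
        obtain ⟨hg1, ⟨γ, rfl⟩⟩ := hg
        rw [hslash, SlashInvariantFormClass.slash_action_eq f _ hg1]
      holo' := hholo
      zero_at_cusps' := by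
        intro c hc
        rw [Subgroup.IsArithmetic.isCusp_iff_isCusp_SL2Z] at hc
        rw [OnePoint.isZeroAt_iff_forall_SL2Z hc]
        intro γ _
        exact hzero γ }
  have hF0 : (F : ℍ → ℂ) = 0 := by
    have : F = 0 := cuspForm_eq_zero_of_nonpos (by simp) F
    rw [this]
    rfl
  have h1 : eich w f = 0 := hF0
  rw [eich_eq hdec] at h1
  have h2 : ((-1 : ℂ) ^ w * (w.factorial : ℂ)) ≠ 0 := by
    have : (w.factorial : ℂ) ≠ 0 := by exact_mod_cast w.factorial_ne_zero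
    have h3 : ((-1 : ℂ) ^ w) ≠ 0 := pow_ne_zero _ (by norm_num)
    exact mul_ne_zero h3 this
  rw [smul_eq_zero_iff_right h2] at h1
  have h3 := eq_zero_of_iterate hdec _ h1
  ext z
  exact congrFun h3 z

end

end Fermat.Agent.Period
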