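import Fermat.Agent.Period.Primitive

/-!
Periods of weight-2 "differentials" on the upper half plane, and their cocycle relation.
-/

set_option autoImplicit false

open UpperHalfPlane hiding I
open Filter Topology Complex MeasureTheory Set Matrix.SpecialLinearGroup
open scoped Manifold MatrixGroups ModularForm

namespace Fermat.Agent.Period

noncomputable section

lemma slash_two_apply {g : GL (Fin 2) ℝ} (hg : 0 < g.det.val) (ψ : ℍ → ℂ) (τ : ℍ) :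
    (ψ ∣[(2:ℤ)] g) τ = ψ (g • τ) * ((g.det.val : ℝ) / denom g τ ^ 2) := by
  rw [ModularForm.slash_apply, σ, if_pos hg, abs_of_pos hg]
  simp only [ContinuousAlgEquiv.refl_apply, Int.reduceSub, zpow_one, zpow_neg]
  rw [mul_assoc, div_eq_mul_inv]
  norm_cast

lemma hasDerivAt_comp_smul {g : GL (Fin 2) ℝ} (hg : 0 < g.det.val) {F ψ : ℍ → ℂ}
    (hF : ∀ τ : ℍ, HasDerivAt (F ∘ ofComplex) (ψ τ) (τ : ℂ)) (τ : ℍ) :
    HasDerivAt ((fun τ => F (g • τ)) ∘ ofComplex) ((ψ ∣[(2:ℤ)] g) τ) (τ : ℂ) := by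
  have h1 : HasDerivAt (fun w ↦ ↑(g • ofComplex w) : ℂ → ℂ)
      ((g.val.det : ℂ) / denom g τ ^ 2) ↑τ := (hasStrictDerivAt_smul hg τ).hasDerivAt
  have h2 := hF (g • τ)
  have h3 : HasDerivAt (F ∘ ofComplex) (ψ (g • τ)) ((fun w ↦ ↑(g • ofComplex w) : ℂ → ℂ) τ) := by
    simpa using h2
  have h4 := h3.comp (τ : ℂ) h1
  rw [slash_two_apply hg]
  refine h4.congr_of_eventuallyEq (Eventually.of_forall fun w => ?_)
  simp

/-- The period `∫_{i∞}^{g i∞} ψ`. -/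
def per (ψ : ℍ → ℂ) (g : GL (Fin 2) ℝ) : ℂ :=
  prim ψ (g • UpperHalfPlane.I) - prim (ψ ∣[(2:ℤ)] g) UpperHalfPlane.I

lemma prim_smul_eq {ψ : ℍ → ℂ} {g : GL (Fin 2) ℝ} (hg : 0 < g.det.val) (h : Decays ψ)
    (h' : Decays (ψ ∣[(2:ℤ)] g)) (τ : ℍ) :
    prim ψ (g • τ) = prim (ψ ∣[(2:ℤ)] g) τ + per ψ g :=
  sub_prim_eq (F := fun τ => prim ψ (g • τ)) h' (hasDerivAt_comp_smul hg (hasDerivAt_prim h)) τ

lemma per_mul {ψ : ℍ → ℂ} {g h : GL (Fin 2) ℝ} (hg : 0 < g.det.val) (hh : 0 < h.det.val)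
    (h1 : Decays ψ) (h2 : Decays (ψ ∣[(2:ℤ)] g)) (h3 : Decays (ψ ∣[(2:ℤ)] (g * h))) :
    per ψ (g * h) = per ψ g + per (ψ ∣[(2:ℤ)] g) h := by
  have hgh : 0 < (g * h).det.val := by
    rw [map_mul, Units.val_mul]; positivity
  have e1 := prim_smul_eq hgh h1 h3 UpperHalfPlane.I
  rw [mul_smul] at e1
  have e2 := prim_smul_eq hg h1 h2 (h • UpperHalfPlane.I)
  have h3' := h3
  rw [SlashAction.slash_mul] at h3'
  have e3 := prim_smul_eq hh h2 h3' UpperHalfPlane.I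
  rw [SlashAction.slash_mul] at e1
  linear_combination e2 + e3 - e1

/-- upper triangular matrices act on vertical lines -/
lemma smul_pt_of_upper {g : GL (Fin 2) ℝ} (hg : 0 < g.det.val) (hc : g 1 0 = 0) (x : ℝ) {y : ℝ}
    (hy : 0 < y) : g • pt x y = pt (g 0 0 / g 1 1 * x + g 0 1 / g 1 1) (g 0 0 / g 1 1 * y) := by
  have hdet : g.det.val = g 0 0 * g 1 1 := by
    rw [Matrix.GeneralLinearGroup.val_det_apply, Matrix.det_fin_two, hc, mul_zero, sub_zero]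
  rw [hdet] at hg
  have h11 : g 1 1 ≠ 0 := by
    rintro h; rw [h, mul_zero] at hg; exact lt_irrefl _ hg
  have hpos : 0 < g 0 0 / g 1 1 := by
    have : 0 < g 1 1 ^ 2 := by positivity
    have : g 0 0 / g 1 1 = (g 0 0 * g 1 1) / g 1 1 ^ 2 := by field_simp
    rw [this]; positivity
  apply UpperHalfPlane.ext
  rw [pt_coe (by positivity), coe_smul_of_det_pos (by rw [hdet]; exact hg), num, denom, hc,
    pt_coe hy]
  have h11' : (g 1 1 : ℂ) ≠ 0 := by exact_mod_cast h11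
  rw [ofReal_zero, zero_mul, zero_add, div_eq_iff h11']
  push_cast
  have key : ∀ a b d X Y : ℂ, d ≠ 0 → a * (X + Y * I) + b = (a / d * X + b / d + a / d * Y * I) * d := by
    intro a b d X Y hd
    field_simp
    ring
  exact key _ _ _ _ _ h11'

lemma per_upper {ψ : ℍ → ℂ} {g : GL (Fin 2) ℝ} (hg : 0 < g.det.val) (hc : g 1 0 = 0)
    (h : Decays ψ) (h' : Decays (ψ ∣[(2:ℤ)] g)) : per ψ g = 0 := by
  have hdet : g.det.val = g 0 0 * g 1 1 := by
    rw [Matrix.GeneralLinearGroup.val_det_apply, Matrix.det_fin_two, hc, mul_zero, sub_zero]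
  have hg' := hg
  rw [hdet] at hg'
  have h11 : g 1 1 ≠ 0 := by
    rintro h; rw [h, mul_zero] at hg'; exact lt_irrefl _ hg'
  have hpos : 0 < g 0 0 / g 1 1 := by
    have : 0 < g 1 1 ^ 2 := by positivity
    have : g 0 0 / g 1 1 = (g 0 0 * g 1 1) / g 1 1 ^ 2 := by field_simp
    rw [this]; positivity
  have l1 : Tendsto (fun T : ℝ => prim ψ (g • pt 0 T)) atTop (𝓝 0) := by
    have t1 : Tendsto (fun T : ℝ => g 0 0 / g 1 1 * T) atTop atTop := tendsto_id.const_mul_atTop hpos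
    have := (tendsto_prim_vert h (g 0 0 / g 1 1 * 0 + g 0 1 / g 1 1)).comp t1
    refine this.congr' ?_
    filter_upwards [eventually_gt_atTop 0] with T hT
    rw [smul_pt_of_upper hg hc 0 hT]
    rfl
  have l2 := (tendsto_prim_vert h' 0).add_const (per ψ g)
  have l3 : Tendsto (fun T : ℝ => prim ψ (g • pt 0 T)) atTop (𝓝 (0 + per ψ g)) :=
    l2.congr fun T => (prim_smul_eq hg h h' _).symm
  have := tendsto_nhds_unique l1 l3
  rw [zero_add] at this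
  exact this.symm

/-- slashing by an upper triangular matrix preserves decay -/
lemma Decays.slash_upper {ψ : ℍ → ℂ} (h : Decays ψ) {g : GL (Fin 2) ℝ} (hg : 0 < g.det.val)
    (hc : g 1 0 = 0) : Decays (ψ ∣[(2:ℤ)] g) := by
  have hdet : g.det.val = g 0 0 * g 1 1 := by
    rw [Matrix.GeneralLinearGroup.val_det_apply, Matrix.det_fin_two, hc, mul_zero, sub_zero]
  have hg' := hg
  rw [hdet] at hg'
  have h11 : g 1 1 ≠ 0 := by
    rintro h; rw [h, mul_zero] at hg'; exact lt_irrefl _ hg'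
  set r := g 0 0 / g 1 1 with hr
  have hpos : 0 < r := by
    have : 0 < g 1 1 ^ 2 := by positivity
    have : r = (g 0 0 * g 1 1) / g 1 1 ^ 2 := by rw [hr]; field_simp
    rw [this]; positivity
  set s := g 0 1 / g 1 1 with hs
  obtain ⟨C, c, A, m, hc', hC, hA, hb⟩ := h.bound
  refine ⟨h.holo.slash 2 g, C * (1 + r + |s|) ^ m * r, c * r, A / r, m, by positivity,
    by positivity, by positivity, fun τ hτ => ?_⟩
  have e1 : g • τ = pt (r * τ.re + s) (r * τ.im) := by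
    conv_lhs => rw [← pt_re_im τ]
    exact smul_pt_of_upper hg hc τ.re τ.im_pos
  have hpos' : 0 < r * τ.im := mul_pos hpos τ.im_pos
  have e2 : (ψ ∣[(2:ℤ)] g) τ = ψ (pt (r * τ.re + s) (r * τ.im)) * r := by
    rw [slash_two_apply hg, e1, denom, hc, hdet]
    have h11' : (g 1 1 : ℂ) ≠ 0 := by exact_mod_cast h11
    congr 1
    rw [hr, ofReal_zero, zero_mul, zero_add]
    push_cast
    rw [div_eq_div_iff (pow_ne_zero 2 h11') h11']
    ring
  rw [e2, norm_mul]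
  have h1 := hb (pt (r * τ.re + s) (r * τ.im)) (by
    rw [pt_im hpos']; rwa [div_le_iff₀ hpos, mul_comm] at hτ)
  rw [pt_re hpos', pt_im hpos'] at h1
  have h2 : 1 + |r * τ.re + s| ≤ (1 + r + |s|) * (1 + |τ.re|) := by
    have := abs_add_le (r * τ.re) s
    rw [abs_mul, abs_of_pos hpos] at this
    nlinarith [abs_nonneg τ.re, abs_nonneg s, mul_nonneg (abs_nonneg s) (abs_nonneg τ.re)]
  calc ‖ψ (pt (r * τ.re + s) (r * τ.im))‖ * ‖(r : ℂ)‖
      ≤ (C * (1 + |r * τ.re + s|) ^ m * Real.exp (-c * (r * τ.im))) * r := by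
        rw [Complex.norm_real, Real.norm_of_nonneg hpos.le]
        gcongr
    _ ≤ (C * ((1 + r + |s|) * (1 + |τ.re|)) ^ m * Real.exp (-c * (r * τ.im))) * r := by
        gcongr
    _ = _ := by
        rw [_root_.mul_pow]
        ring_nf

/-- all `SL(2,ℤ)`-translates decay -/
def Adm (ψ : ℍ → ℂ) : Prop := ∀ γ : SL(2, ℤ), Decays (ψ ∣[(2:ℤ)] (mapGL ℝ γ))

lemma Adm.decays {ψ : ℍ → ℂ} (h : Adm ψ) : Decays ψ := by
  simpa using h 1

lemma det_mapGL_pos (γ : SL(2, ℤ)) : 0 < (mapGL ℝ γ).det.val := by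
  simp

lemma Adm.slash {ψ : ℍ → ℂ} (h : Adm ψ) (γ : SL(2, ℤ)) : Adm (ψ ∣[(2:ℤ)] (mapGL ℝ γ)) := by
  intro δ
  rw [← SlashAction.slash_mul, ← map_mul]
  exact h _

lemma Adm.slash_mul_upper {ψ : ℍ → ℂ} (h : Adm ψ) (γ : SL(2, ℤ)) {g : GL (Fin 2) ℝ}
    (hg : 0 < g.det.val) (hc : g 1 0 = 0) : Decays (ψ ∣[(2:ℤ)] (mapGL ℝ γ * g)) := by
  rw [SlashAction.slash_mul]
  exact (h γ).slash_upper hg hc

lemma per_mul_SL {ψ : ℍ → ℂ} (h : Adm ψ) (γ δ : SL(2, ℤ)) :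
    per ψ (mapGL ℝ (γ * δ)) = per ψ (mapGL ℝ γ) + per (ψ ∣[(2:ℤ)] (mapGL ℝ γ)) (mapGL ℝ δ) := by
  rw [map_mul]
  refine per_mul (det_mapGL_pos γ) (det_mapGL_pos δ) h.decays (h γ) ?_
  rw [← map_mul]
  exact h _

lemma per_mul_upper {ψ : ℍ → ℂ} (h : Adm ψ) (γ : SL(2, ℤ)) {g : GL (Fin 2) ℝ}
    (hg : 0 < g.det.val) (hc : g 1 0 = 0) :
    per ψ (mapGL ℝ γ * g) = per ψ (mapGL ℝ γ) := by
  rw [per_mul (det_mapGL_pos γ) hg h.decays (h γ) (h.slash_mul_upper γ hg hc),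
    per_upper hg hc (h γ), add_zero]
  rw [← SlashAction.slash_mul]
  exact h.slash_mul_upper γ hg hc

lemma Adm.add {ψ φ : ℍ → ℂ} (h : Adm ψ) (h' : Adm φ) : Adm (ψ + φ) := by
  intro γ
  rw [SlashAction.add_slash]
  exact (h γ).add (h' γ)

lemma slash_const_smul (ψ : ℍ → ℂ) (a : ℂ) {g : GL (Fin 2) ℝ} (hg : 0 < g.det.val) (k : ℤ) :
    (a • ψ) ∣[k] g = a • (ψ ∣[k] g) := by
  rw [ModularForm.smul_slash, σ, if_pos hg]
  rfl

lemma Adm.const_smul {ψ : ℍ → ℂ} (h : Adm ψ) (a : ℂ) : Adm (a • ψ) := by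
  intro γ
  rw [slash_const_smul _ _ (det_mapGL_pos γ)]
  exact (h γ).const_smul a

lemma per_add {ψ φ : ℍ → ℂ} {g : GL (Fin 2) ℝ} (h : Decays ψ) (h' : Decays φ)
    (hg : Decays (ψ ∣[(2:ℤ)] g)) (hg' : Decays (φ ∣[(2:ℤ)] g)) :
    per (ψ + φ) g = per ψ g + per φ g := by
  rw [per, per, per, prim_add h h', SlashAction.add_slash, prim_add hg hg', Pi.add_apply,
    Pi.add_apply]
  ring

lemma per_const_smul {ψ : ℍ → ℂ} {g : GL (Fin 2) ℝ} (hg : 0 < g.det.val) (a : ℂ) :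
    per (a • ψ) g = a * per ψ g := by
  rw [per, per, prim_const_smul, slash_const_smul _ _ hg, prim_const_smul, Pi.smul_apply,
    Pi.smul_apply, smul_eq_mul, smul_eq_mul]
  ring

end

end Fermat.Agent.Period
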