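import Fermat.Agent.Period.Period

/-!
Polynomial functions of bounded degree on the upper half plane, the `-w` slash action,
and "good" functions: `φ * P` has decaying `SL(2,ℤ)`-translates for all `P` of degree `≤ w`.
-/

set_option autoImplicit false

open UpperHalfPlane hiding I
open Filter Topology Complex MeasureTheory Set Matrix.SpecialLinearGroup
open scoped Manifold MatrixGroups ModularForm

namespace Fermat.Agent.Period

noncomputable section

/-- the monomial function. -/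
def mono (j : ℕ) : ℍ → ℂ := fun τ => (τ : ℂ) ^ j

/-- `R`-span of monomial functions of degree at most `w`. -/
def Pol (R : Type) [CommRing R] [Algebra R ℂ] (w : ℕ) : Submodule R (ℍ → ℂ) :=
  Submodule.span R {P | ∃ j ≤ w, P = mono j}

section

variable {R : Type} [CommRing R] [Algebra R ℂ]

lemma mono_mem {j w : ℕ} (h : j ≤ w) : mono j ∈ Pol R w := Submodule.subset_span ⟨j, h, rfl⟩

lemma Pol_mono {w w' : ℕ} (h : w ≤ w') : Pol R w ≤ Pol R w' :=
  Submodule.span_mono fun _ ⟨j, hj, e⟩ => ⟨j, hj.trans h, e⟩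

lemma mul_mem_Pol {w w' : ℕ} {P Q : ℍ → ℂ} (hP : P ∈ Pol R w) (hQ : Q ∈ Pol R w') :
    P * Q ∈ Pol R (w + w') := by
  induction hP using Submodule.span_induction with
  | mem P hP =>
    obtain ⟨i, hi, rfl⟩ := hP
    induction hQ using Submodule.span_induction with
    | mem Q hQ =>
      obtain ⟨j, hj, rfl⟩ := hQ
      have : mono i * mono j = mono (i + j) := by
        funext τ
        simp [mono, pow_add]
      rw [this]
      exact mono_mem (by omega)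
    | zero => simp
    | add Q Q' _ _ h1 h2 => rw [mul_add]; exact add_mem h1 h2
    | smul r Q _ h => rw [mul_smul_comm]; exact Submodule.smul_mem _ _ h
  | zero => simp
  | add P P' _ _ h1 h2 => rw [add_mul]; exact add_mem h1 h2
  | smul r P _ h => rw [smul_mul_assoc]; exact Submodule.smul_mem _ _ h

lemma one_mem_Pol {w : ℕ} : (1 : ℍ → ℂ) ∈ Pol R w := by
  have : (1 : ℍ → ℂ) = mono 0 := by funext τ; simp [mono]
  rw [this]
  exact mono_mem (Nat.zero_le _)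

lemma pow_mem_Pol {w : ℕ} {P : ℍ → ℂ} (hP : P ∈ Pol R w) (n : ℕ) :
    P ^ n ∈ Pol R (n * w) := by
  induction n with
  | zero => simpa using one_mem_Pol
  | succ n ih =>
    rw [pow_succ, add_mul, one_mul]
    exact mul_mem_Pol ih hP

/-- integral linear functions. -/
lemma lin_mem_Pol (a b : ℤ) : (fun τ : ℍ => (a : ℂ) * τ + b) ∈ Pol R 1 := by
  have : (fun τ : ℍ => (a : ℂ) * τ + b) = (a : R) • mono 1 + (b : R) • mono 0 := by
    funext τ
    simp [mono, Algebra.smul_def]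
  rw [this]
  exact add_mem (Submodule.smul_mem _ _ (mono_mem le_rfl))
    (Submodule.smul_mem _ _ (mono_mem (by omega)))

lemma lin_pow_mul_mem_Pol (a b c d : ℤ) {j w : ℕ} (h : j ≤ w) :
    (fun τ : ℍ => ((a : ℂ) * τ + b) ^ j * ((c : ℂ) * τ + d) ^ (w - j)) ∈ Pol R w := by
  have := mul_mem_Pol (pow_mem_Pol (lin_mem_Pol (R := R) a b) j)
    (pow_mem_Pol (lin_mem_Pol (R := R) c d) (w - j))
  rw [mul_one, mul_one, Nat.add_sub_cancel' h] at this
  exact this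

lemma algSmul_slash (r : R) (P : ℍ → ℂ) {g : GL (Fin 2) ℝ} (hg : 0 < g.det.val) (k : ℤ) :
    (r • P) ∣[k] g = r • (P ∣[k] g) := by
  have h1 : ∀ Q : ℍ → ℂ, r • Q = (algebraMap R ℂ r) • Q := by
    intro Q; funext τ; simp [Algebra.smul_def]
  rw [h1, h1, slash_const_smul _ _ hg]

lemma slash_SL_mem_Pol {w : ℕ} {P : ℍ → ℂ} (hP : P ∈ Pol R w) (γ : SL(2, ℤ)) :
    P ∣[(-(w:ℤ))] (mapGL ℝ γ) ∈ Pol R w := by
  induction hP using Submodule.span_induction with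
  | mem P hP =>
    obtain ⟨j, hj, rfl⟩ := hP
    have : mono j ∣[(-(w:ℤ))] (mapGL ℝ γ) =
        fun τ : ℍ => (((γ 0 0 : ℤ) : ℂ) * τ + (γ 0 1 : ℤ)) ^ j *
          (((γ 1 0 : ℤ) : ℂ) * τ + (γ 1 1 : ℤ)) ^ (w - j) := by
      funext τ
      have hd : ((γ 1 0 : ℤ) : ℂ) * τ + (γ 1 1 : ℤ) ≠ 0 := by
        have := denom_ne_zero (mapGL ℝ γ) τ
        simpa [denom] using this
      have h1 : (mono j ∣[(-(w:ℤ))] (mapGL ℝ γ)) τ =
          mono j (mapGL ℝ γ • τ) * denom (mapGL ℝ γ) τ ^ (w : ℤ) := by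
        rw [ModularForm.slash_apply]
        simp [σ]
      rw [h1, mono, coe_smul_of_det_pos (det_mapGL_pos γ), num, denom]
      simp only [mapGL_coe_matrix, map_apply_coe, RingHom.mapMatrix_apply, Matrix.map_apply,
        algebraMap_int_eq, Int.coe_castRingHom, ofReal_intCast, zpow_natCast]
      rw [div_pow, div_mul_eq_mul_div, div_eq_iff (pow_ne_zero _ hd), mul_assoc, ← pow_add,
        Nat.sub_add_cancel hj]
    rw [this]
    exact lin_pow_mul_mem_Pol _ _ _ _ hj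
  | zero => rw [SlashAction.zero_slash]; exact zero_mem _
  | add P Q _ _ h1 h2 => rw [SlashAction.add_slash]; exact add_mem h1 h2
  | smul r P _ h =>
    rw [algSmul_slash _ _ (det_mapGL_pos γ)]
    exact Submodule.smul_mem _ _ h

/-- integral upper triangular matrices -/
def IsUpper (g : GL (Fin 2) ℝ) (a b d : ℤ) : Prop :=
  0 < a ∧ 0 < d ∧ (g : Matrix (Fin 2) (Fin 2) ℝ) = !![(a:ℝ), (b:ℝ); 0, (d:ℝ)]

lemma IsUpper.det {g : GL (Fin 2) ℝ} {a b d : ℤ} (h : IsUpper g a b d) :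
    g.det.val = a * d := by
  rw [Matrix.GeneralLinearGroup.val_det_apply, h.2.2, Matrix.det_fin_two_of]
  ring

lemma IsUpper.det_pos {g : GL (Fin 2) ℝ} {a b d : ℤ} (h : IsUpper g a b d) :
    0 < g.det.val := by
  rw [h.det]
  have := h.1
  have := h.2.1
  positivity

lemma IsUpper.lower {g : GL (Fin 2) ℝ} {a b d : ℤ} (h : IsUpper g a b d) : g 1 0 = 0 := by
  have := congrFun (congrFun h.2.2 1) 0
  simpa using this

lemma exists_Pol_slash_upper {w : ℕ} {g : GL (Fin 2) ℝ} {a b d : ℤ} (h : IsUpper g a b d)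
    {P : ℍ → ℂ} (hP : P ∈ Pol R w) :
    ∃ P' ∈ Pol R w, ∀ φ : ℍ → ℂ, (φ ∣[((w:ℤ) + 2)] g) * P = (φ * P') ∣[(2:ℤ)] g := by
  have ha : (a : ℂ) ≠ 0 := by exact_mod_cast h.1.ne'
  have hd : (d : ℂ) ≠ 0 := by exact_mod_cast h.2.1.ne'
  have key : ∀ φ Q : ℍ → ℂ, (φ * Q) ∣[(2:ℤ)] g =
      ((a:ℂ) * d) • ((φ ∣[((w:ℤ) + 2)] g) * (Q ∣[(-(w:ℤ))] g)) := by
    intro φ Q
    have h1 := ModularForm.mul_slash ((w:ℤ) + 2) (-(w:ℤ)) g φ Q
    rw [show ((w:ℤ) + 2) + (-(w:ℤ)) = 2 by ring] at h1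
    rw [h1, abs_of_pos h.det_pos, h.det]
    funext τ
    simp
  induction hP using Submodule.span_induction with
  | mem P hP =>
    obtain ⟨j, hj, rfl⟩ := hP
    refine ⟨fun τ => ((d : ℂ) * τ + (-b : ℤ)) ^ j * (((0 : ℤ) : ℂ) * τ + (a : ℤ)) ^ (w - j),
      lin_pow_mul_mem_Pol _ _ _ _ hj, fun φ => ?_⟩
    rw [key, mul_comm, mul_comm (φ ∣[((w:ℤ) + 2)] g), ← smul_mul_assoc]
    congr 1
    funext τ
    have h2 : (g • τ : ℍ) = ((a:ℂ) * τ + b) / d := by
      rw [coe_smul_of_det_pos h.det_pos, num, denom, h.2.2]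
      simp
    have h3 : denom g τ = d := by
      rw [denom, h.2.2]
      simp
    rw [Pi.smul_apply, ModularForm.slash_apply, σ, if_pos h.det_pos, h2, h3,
      abs_of_pos h.det_pos, h.det]
    simp only [mono, Int.cast_neg, Int.cast_zero, zero_mul, zero_add, ofReal_mul, ofReal_intCast,
      neg_neg, zpow_natCast, ContinuousAlgEquiv.refl_apply, smul_eq_mul]
    have e1 : (d : ℂ) * (((a:ℂ) * τ + b) / d) + -b = a * τ := by
      field_simp
      ring
    rw [e1, show (-(w:ℤ) - 1) = -((w + 1 : ℕ) : ℤ) by push_cast; ring, zpow_neg, zpow_natCast]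
    have e2 : (a:ℂ) ^ (w - j) * (a:ℂ) ^ j = (a:ℂ) ^ w := by
      rw [← pow_add, Nat.sub_add_cancel hj]
    have had : ((a:ℂ) * d) ^ (w + 1) ≠ 0 := pow_ne_zero _ (mul_ne_zero ha hd)
    field_simp
    rw [_root_.mul_pow, _root_.mul_pow, pow_succ, pow_succ, ← e2]
    ring
  | zero => exact ⟨0, zero_mem _, fun φ => by simp⟩
  | add P Q _ _ h1 h2 =>
    obtain ⟨P', hP', e1⟩ := h1
    obtain ⟨Q', hQ', e2⟩ := h2
    exact ⟨P' + Q', add_mem hP' hQ', fun φ => by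
      rw [mul_add, mul_add, e1, e2, SlashAction.add_slash]⟩
  | smul r P _ h1 =>
    obtain ⟨P', hP', e1⟩ := h1
    exact ⟨r • P', Submodule.smul_mem _ _ hP', fun φ => by
      rw [mul_smul_comm, mul_smul_comm, e1, algSmul_slash _ _ h.det_pos]⟩

lemma mul_slash_SL {w : ℕ} (φ P : ℍ → ℂ) (γ : SL(2, ℤ)) :
    (φ * P) ∣[(2:ℤ)] (mapGL ℝ γ) =
      (φ ∣[((w:ℤ) + 2)] (mapGL ℝ γ)) * (P ∣[(-(w:ℤ))] (mapGL ℝ γ)) := by
  have h1 := ModularForm.mul_slash ((w:ℤ) + 2) (-(w:ℤ)) (mapGL ℝ γ) φ P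
  rw [show ((w:ℤ) + 2) + (-(w:ℤ)) = 2 by ring] at h1
  rw [h1]
  simp

end

lemma Decays.mul_Pol {w : ℕ} {φ P : ℍ → ℂ} (h : Decays φ) (hP : P ∈ Pol ℂ w) :
    Decays (φ * P) := by
  induction hP using Submodule.span_induction with
  | mem P hP =>
    obtain ⟨j, hj, rfl⟩ := hP
    exact h.mul_pow j
  | zero => simpa using Decays.zero
  | add P Q _ _ h1 h2 => rw [mul_add]; exact h1.add h2
  | smul r P _ h1 => rw [mul_smul_comm]; exact h1.const_smul r

/-- `φ` is good of weight `w + 2`. -/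
def Good (w : ℕ) (φ : ℍ → ℂ) : Prop := ∀ P ∈ Pol ℂ w, Adm (φ * P)

lemma good_of_decays {w : ℕ} {φ : ℍ → ℂ}
    (h : ∀ γ : SL(2, ℤ), Decays (φ ∣[((w:ℤ) + 2)] (mapGL ℝ γ))) : Good w φ := by
  intro P hP γ
  rw [mul_slash_SL (w := w)]
  exact (h γ).mul_Pol (slash_SL_mem_Pol hP γ)

lemma Good.add {w : ℕ} {φ φ' : ℍ → ℂ} (h : Good w φ) (h' : Good w φ') : Good w (φ + φ') := by
  intro P hP
  rw [add_mul]
  exact (h P hP).add (h' P hP)

lemma Good.zero {w : ℕ} : Good w 0 := by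
  intro P hP γ
  simpa using Decays.zero

lemma Good.sum {w : ℕ} {ι : Type*} (s : Finset ι) {φ : ι → ℍ → ℂ} (h : ∀ i ∈ s, Good w (φ i)) :
    Good w (∑ i ∈ s, φ i) := by
  classical
  induction s using Finset.induction_on with
  | empty => simpa using Good.zero
  | insert i s hi ih =>
    rw [Finset.sum_insert hi]
    exact (h i (Finset.mem_insert_self _ _)).add (ih fun j hj => h j (Finset.mem_insert_of_mem hj))

lemma Good.slash_SL {w : ℕ} {φ : ℍ → ℂ} (h : Good w φ) (γ : SL(2, ℤ)) :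
    Good w (φ ∣[((w:ℤ) + 2)] (mapGL ℝ γ)) := by
  intro P hP
  have h1 : (φ ∣[((w:ℤ) + 2)] (mapGL ℝ γ)) * P =
      (φ * (P ∣[(-(w:ℤ))] (mapGL ℝ γ⁻¹))) ∣[(2:ℤ)] (mapGL ℝ γ) := by
    rw [mul_slash_SL (w := w), ← SlashAction.slash_mul, ← map_mul]
    simp
  rw [h1]
  exact (h _ (slash_SL_mem_Pol hP γ⁻¹)).slash γ

/-- Hermite normal form. -/
lemma exists_hnf (M : Matrix (Fin 2) (Fin 2) ℤ) (hM : 0 < M.det) :
    ∃ (γ : SL(2, ℤ)) (a b d : ℤ), 0 < a ∧ 0 < d ∧ M = (γ : Matrix (Fin 2) (Fin 2) ℤ) * !![a, b; 0, d] := by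
  rw [Matrix.det_fin_two] at hM
  set p := M 0 0 with hp
  set q := M 0 1 with hq
  set r := M 1 0 with hr
  set s := M 1 1 with hs
  have hpr : p ≠ 0 ∨ r ≠ 0 := by
    by_contra! h
    rw [h.1, h.2] at hM
    simp at hM
  set g : ℤ := (Int.gcd p r : ℤ) with hg
  have hgpos : 0 < g := by
    have : Int.gcd p r ≠ 0 := by
      intro h0
      rw [Int.gcd_eq_zero_iff] at h0
      omega
    omega
  obtain ⟨p', hp'⟩ : g ∣ p := Int.gcd_dvd_left ..
  obtain ⟨r', hr'⟩ : g ∣ r := Int.gcd_dvd_right ..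
  have hbez : g = p * Int.gcdA p r + r * Int.gcdB p r := Int.gcd_eq_gcd_ab p r
  set x := Int.gcdA p r
  set y := Int.gcdB p r
  have h1 : p' * x + r' * y = 1 := by
    have : g * (p' * x + r' * y) = g * 1 := by
      rw [mul_one]
      conv_rhs => rw [hbez, hp', hr']
      ring
    exact mul_left_cancel₀ hgpos.ne' this
  let γ : SL(2, ℤ) := ⟨!![p', -y; r', x], by rw [Matrix.det_fin_two_of]; linarith⟩
  refine ⟨γ, g, x * q + y * s, p' * s - r' * q, hgpos, ?_, ?_⟩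
  · have : g * (p' * s - r' * q) = p * s - q * r := by
      rw [hp', hr']; ring
    rw [← this] at hM
    exact (pos_iff_pos_of_mul_pos hM).mp hgpos
  · show M = !![p', -y; r', x] * !![g, x * q + y * s; 0, p' * s - r' * q]
    rw [Matrix.mul_fin_two]
    ext i j
    fin_cases i <;> fin_cases j
    · show p = _
      simp only [Fin.zero_eta, Matrix.of_apply, Matrix.cons_val', Matrix.cons_val_zero,
        Matrix.cons_val_fin_one]
      rw [hp']; ring
    · show q = _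
      simp only [Fin.zero_eta, Fin.mk_one, Matrix.of_apply, Matrix.cons_val',
        Matrix.cons_val_zero, Matrix.cons_val_fin_one, Matrix.cons_val_one]
      linear_combination (-q) * h1
    · show r = _
      simp only [Fin.zero_eta, Fin.mk_one, Matrix.of_apply, Matrix.cons_val',
        Matrix.cons_val_zero, Matrix.cons_val_fin_one, Matrix.cons_val_one]
      rw [hr']; ring
    · show s = _
      simp only [Fin.zero_eta, Fin.mk_one, Matrix.of_apply, Matrix.cons_val',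
        Matrix.cons_val_zero, Matrix.cons_val_fin_one, Matrix.cons_val_one]
      linear_combination (-s) * h1

/-- `g` is an integral matrix of positive determinant -/
def IsIntPos (g : GL (Fin 2) ℝ) : Prop :=
  ∃ M : Matrix (Fin 2) (Fin 2) ℤ, 0 < M.det ∧ (g : Matrix (Fin 2) (Fin 2) ℝ) = M.map (Int.castRingHom ℝ)

lemma IsIntPos.exists_hnf {g : GL (Fin 2) ℝ} (h : IsIntPos g) :
    ∃ (γ : SL(2, ℤ)) (a b d : ℤ) (β : GL (Fin 2) ℝ), IsUpper β a b d ∧ g = mapGL ℝ γ * β := by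
  obtain ⟨M, hM, hg⟩ := h
  obtain ⟨γ, a, b, d, ha, hd, e⟩ := Fermat.Agent.Period.exists_hnf M hM
  refine ⟨γ, a, b, d, (mapGL ℝ γ)⁻¹ * g, ⟨ha, hd, ?_⟩, by group⟩
  have h1 : ((mapGL ℝ γ * ((mapGL ℝ γ)⁻¹ * g) : GL (Fin 2) ℝ) : Matrix (Fin 2) (Fin 2) ℝ) =
      M.map (Int.castRingHom ℝ) := by
    rw [mul_inv_cancel_left, hg]
  have h2 : ((mapGL ℝ γ : GL (Fin 2) ℝ) : Matrix (Fin 2) (Fin 2) ℝ) =
      (γ : Matrix (Fin 2) (Fin 2) ℤ).map (Int.castRingHom ℝ) := by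
    ext i j
    simp [mapGL_coe_matrix]
  have h3 : (M.map (Int.castRingHom ℝ)) =
      ((mapGL ℝ γ : GL (Fin 2) ℝ) : Matrix (Fin 2) (Fin 2) ℝ) * !![(a:ℝ), (b:ℝ); 0, (d:ℝ)] := by
    rw [e, Matrix.map_mul, ← h2]
    congr 1
    ext i j
    fin_cases i <;> fin_cases j <;> simp
  rw [Units.val_mul, h3] at h1
  have h4 : IsUnit ((mapGL ℝ γ : GL (Fin 2) ℝ) : Matrix (Fin 2) (Fin 2) ℝ) := Units.isUnit _
  exact h4.mul_left_cancel h1

lemma IsUpper.isIntPos {g : GL (Fin 2) ℝ} {a b d : ℤ} (h : IsUpper g a b d) : IsIntPos g := by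
  refine ⟨!![a, b; 0, d], ?_, ?_⟩
  · rw [Matrix.det_fin_two_of]
    have := h.1
    have := h.2.1
    nlinarith [mul_pos h.1 h.2.1]
  · rw [h.2.2]
    ext i j
    fin_cases i <;> fin_cases j <;> simp

lemma isIntPos_mapGL (γ : SL(2, ℤ)) : IsIntPos (mapGL ℝ γ) := by
  refine ⟨γ, ?_, ?_⟩
  · simp
  · ext i j
    simp [mapGL_coe_matrix]

lemma IsIntPos.mul {g h : GL (Fin 2) ℝ} (hg : IsIntPos g) (hh : IsIntPos h) :
    IsIntPos (g * h) := by
  obtain ⟨M, hM, eM⟩ := hg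
  obtain ⟨L, hL, eL⟩ := hh
  refine ⟨M * L, ?_, ?_⟩
  · rw [Matrix.det_mul]; positivity
  · rw [Units.val_mul, eM, eL, Matrix.map_mul]

lemma Good.decays_slash_int {w : ℕ} {φ : ℍ → ℂ} (h : Good w φ) {P : ℍ → ℂ} (hP : P ∈ Pol ℂ w)
    {g : GL (Fin 2) ℝ} (hg : IsIntPos g) :
    Decays ((φ ∣[((w:ℤ) + 2)] g) * P) := by
  obtain ⟨γ, a, b, d, β, hβ, rfl⟩ := hg.exists_hnf
  obtain ⟨P', hP', e⟩ := exists_Pol_slash_upper hβ hP
  rw [SlashAction.slash_mul, e]
  exact ((h.slash_SL γ) P' hP').decays.slash_upper hβ.det_pos hβ.lower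

lemma Good.slash_int {w : ℕ} {φ : ℍ → ℂ} (h : Good w φ) {g : GL (Fin 2) ℝ} (hg : IsIntPos g) :
    Good w (φ ∣[((w:ℤ) + 2)] g) := by
  intro P hP γ
  rw [mul_slash_SL (w := w), ← SlashAction.slash_mul]
  exact h.decays_slash_int (slash_SL_mem_Pol hP γ) (hg.mul (isIntPos_mapGL γ))

end

end Fermat.Agent.Period
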