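import Mathlib

/-!
Primitives of exponentially decaying holomorphic functions on the upper half plane.
-/

set_option autoImplicit false

open UpperHalfPlane hiding I
open Filter Topology Complex MeasureTheory Set
open scoped Manifold

namespace Fermat.Agent.Period

noncomputable section

/-- Möbius transform to the unit disc. -/
def cay (z : ℂ) : ℂ := (z - I) / (z + I)

lemma add_I_ne_zero {z : ℂ} (hz : 0 < z.im) : z + I ≠ 0 := by
  intro h
  have : (z + I).im = 0 := by rw [h]; simp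
  simp at this
  linarith

lemma cay_mem_ball {z : ℂ} (hz : 0 < z.im) : cay z ∈ Metric.ball (0:ℂ) 1 := by
  have h0 := add_I_ne_zero hz
  rw [mem_ball_zero_iff, cay, norm_div, div_lt_one (norm_pos_iff.mpr h0)]
  have h1 : ‖z - I‖ ^ 2 < ‖z + I‖ ^ 2 := by
    rw [← Complex.normSq_eq_norm_sq, ← Complex.normSq_eq_norm_sq, Complex.normSq_apply,
      Complex.normSq_apply]
    simp
    nlinarith
  exact lt_of_pow_lt_pow_left₀ 2 (norm_nonneg _) h1

def cayInv (w : ℂ) : ℂ := I * (1 + w) / (1 - w)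

lemma one_sub_ne_zero_of_mem_ball {w : ℂ} (hw : w ∈ Metric.ball (0:ℂ) 1) : (1:ℂ) - w ≠ 0 := by
  rw [mem_ball_zero_iff] at hw
  intro h
  rw [sub_eq_zero] at h
  rw [← h] at hw
  simp at hw

lemma cayInv_im_pos {w : ℂ} (hw : w ∈ Metric.ball (0:ℂ) 1) : 0 < (cayInv w).im := by
  have h1 := one_sub_ne_zero_of_mem_ball hw
  rw [mem_ball_zero_iff] at hw
  have h2 : Complex.normSq w < 1 := by
    rw [Complex.normSq_eq_norm_sq]
    have := norm_nonneg w
    nlinarith
  have h3 : 0 < Complex.normSq (1 - w) := Complex.normSq_pos.mpr h1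
  have h5 : (cayInv w).im = (1 - Complex.normSq w) / Complex.normSq (1 - w) := by
    rw [cayInv, Complex.div_im]
    simp only [mul_im, Complex.I_re, add_im, one_im, zero_add, zero_mul, Complex.I_im, add_re,
      one_re, one_mul, sub_re, mul_re, zero_sub, sub_im]
    field_simp
    rw [Complex.normSq_apply]
    ring
  rw [h5]
  exact div_pos (by linarith) h3

lemma cayInv_cay {z : ℂ} (hz : 0 < z.im) : cayInv (cay z) = z := by
  have h0 := add_I_ne_zero hz
  have h2 : (1 : ℂ) - (z - I) / (z + I) ≠ 0 := by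
    rw [one_sub_div h0]
    apply div_ne_zero _ h0
    ring_nf
    simp
  rw [cayInv, cay, div_eq_iff h2]
  field_simp
  ring

/-- Every holomorphic function on `ℍ` has a primitive. -/
theorem exists_primitive {ψ : ℍ → ℂ} (hψ : MDiff ψ) :
    ∃ F : ℍ → ℂ, ∀ τ : ℍ, HasDerivAt (F ∘ ofComplex) (ψ τ) (τ : ℂ) := by
  have hd : DifferentiableOn ℂ (ψ ∘ ofComplex) {z | 0 < z.im} := mdifferentiable_iff.mp hψ
  -- function on the ball
  let h : ℂ → ℂ := fun w => (ψ ∘ ofComplex) (cayInv w) * ((cayInv w + I) ^ 2 / (2 * I))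
  have hcd : DifferentiableOn ℂ cayInv (Metric.ball (0:ℂ) 1) := by
    intro w hw
    have h1 := one_sub_ne_zero_of_mem_ball hw
    refine DifferentiableAt.differentiableWithinAt ?_
    unfold cayInv
    fun_prop (disch := assumption)
  have hh : DifferentiableOn ℂ h (Metric.ball (0:ℂ) 1) := by
    refine DifferentiableOn.mul (hd.comp hcd fun w hw => cayInv_im_pos hw) ?_
    exact ((hcd.add_const I).pow 2).div_const _
  obtain ⟨H, hH⟩ := hh.isExactOn_ball
  refine ⟨fun τ => H (cay τ), fun τ => ?_⟩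
  have h1 : HasDerivAt H (h (cay τ)) (cay τ) := hH _ (cay_mem_ball τ.im_pos)
  have h0 := add_I_ne_zero τ.im_pos
  have h2 : HasDerivAt cay (2 * I / ((τ : ℂ) + I) ^ 2) (τ : ℂ) := by
    have := ((hasDerivAt_id (τ : ℂ)).sub_const I).div ((hasDerivAt_id (τ : ℂ)).add_const I) h0
    have e : (2 * I / ((τ : ℂ) + I) ^ 2) =
      (1 * (id (τ : ℂ) + I) - (id (τ : ℂ) - I) * 1) / (id (τ : ℂ) + I) ^ 2 := by
      simp only [id]
      ring
    rw [e]
    exact this
  have h3 := h1.comp (τ : ℂ) h2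
  have h4 : h (cay τ) * (2 * I / ((τ : ℂ) + I) ^ 2) = ψ τ := by
    simp only [h, Function.comp_apply]
    rw [cayInv_cay τ.im_pos, ofComplex_apply]
    have : (2 * I : ℂ) ≠ 0 := by simp
    have h0' : ((τ : ℂ) + I) ^ 2 ≠ 0 := pow_ne_zero _ h0
    field_simp
  rw [h4] at h3
  refine h3.congr_of_eventuallyEq ?_
  filter_upwards [isOpen_upperHalfPlaneSet.mem_nhds τ.im_pos] with w hw
  simp [Function.comp_apply, ofComplex_apply_of_im_pos hw]

/-- Holomorphic functions on `ℍ` which decay exponentially at `i∞`, with polynomial growth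
in the real part allowed. -/
structure Decays (ψ : ℍ → ℂ) : Prop where
  holo : MDiff ψ
  bound : ∃ C c A : ℝ, ∃ m : ℕ, 0 < c ∧ 0 ≤ C ∧ 0 < A ∧ ∀ τ : ℍ, A ≤ τ.im →
    ‖ψ τ‖ ≤ C * (1 + |τ.re|) ^ m * Real.exp (-c * τ.im)

lemma Decays.zero : Decays 0 := by
  refine ⟨fun _ => mdifferentiableAt_const, 0, 1, 1, 0, one_pos, le_rfl, one_pos, fun τ _ => ?_⟩
  simp

lemma Decays.add {ψ φ : ℍ → ℂ} (h : Decays ψ) (h' : Decays φ) : Decays (ψ + φ) := by
  obtain ⟨C, c, A, m, hc, hC, hA, hb⟩ := h.bound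
  obtain ⟨C', c', A', m', hc', hC', hA', hb'⟩ := h'.bound
  refine ⟨h.holo.add h'.holo, C + C', min c c', max A A', max m m', lt_min hc hc', by positivity,
    lt_max_of_lt_left hA, fun τ hτ => ?_⟩
  have h1 := hb τ ((le_max_left _ _).trans hτ)
  have h2 := hb' τ ((le_max_right _ _).trans hτ)
  have hr : (1:ℝ) ≤ 1 + |τ.re| := by linarith [abs_nonneg τ.re]
  have e1 : (1 + |τ.re|) ^ m ≤ (1 + |τ.re|) ^ (max m m') := pow_le_pow_right₀ hr (le_max_left _ _)
  have e2 : (1 + |τ.re|) ^ m' ≤ (1 + |τ.re|) ^ (max m m') := pow_le_pow_right₀ hr (le_max_right _ _)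
  have hi := τ.im_pos
  have f1 : Real.exp (-c * τ.im) ≤ Real.exp (-(min c c') * τ.im) := by
    apply Real.exp_le_exp.mpr
    nlinarith [min_le_left c c']
  have f2 : Real.exp (-c' * τ.im) ≤ Real.exp (-(min c c') * τ.im) := by
    apply Real.exp_le_exp.mpr
    nlinarith [min_le_right c c']
  calc ‖(ψ + φ) τ‖ ≤ ‖ψ τ‖ + ‖φ τ‖ := norm_add_le _ _
    _ ≤ C * (1 + |τ.re|) ^ m * Real.exp (-c * τ.im) +
        C' * (1 + |τ.re|) ^ m' * Real.exp (-c' * τ.im) := add_le_add h1 h2
    _ ≤ C * (1 + |τ.re|) ^ (max m m') * Real.exp (-(min c c') * τ.im) +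
        C' * (1 + |τ.re|) ^ (max m m') * Real.exp (-(min c c') * τ.im) := by gcongr
    _ = _ := by ring

lemma Decays.const_smul {ψ : ℍ → ℂ} (h : Decays ψ) (a : ℂ) : Decays (a • ψ) := by
  obtain ⟨C, c, A, m, hc, hC, hA, hb⟩ := h.bound
  refine ⟨h.holo.const_smul a, ‖a‖ * C, c, A, m, hc, by positivity, hA, fun τ hτ => ?_⟩
  have h1 := hb τ hτ
  calc ‖(a • ψ) τ‖ = ‖a‖ * ‖ψ τ‖ := by simp
    _ ≤ ‖a‖ * (C * (1 + |τ.re|) ^ m * Real.exp (-c * τ.im)) := by gcongr
    _ = _ := by ring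

lemma exists_le_exp (c : ℝ) (hc : 0 < c) : ∃ K : ℝ, 0 ≤ K ∧ ∀ y : ℝ, 0 < y →
    y ≤ K * Real.exp (c * y) := by
  refine ⟨1 / c, by positivity, fun y hy => ?_⟩
  have := Real.add_one_le_exp (c * y)
  rw [div_mul_eq_mul_div, le_div_iff₀ hc]
  nlinarith

lemma Decays.mul_coe {ψ : ℍ → ℂ} (h : Decays ψ) : Decays (fun τ => ψ τ * (τ : ℂ)) := by
  obtain ⟨C, c, A, m, hc, hC, hA, hb⟩ := h.bound
  obtain ⟨K, hK, hKb⟩ := exists_le_exp (c / 2) (by positivity)
  refine ⟨h.holo.mul mdifferentiable_coe, C * (1 + K), c / 2, A, m + 1, by positivity,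
    by positivity, hA, fun τ hτ => ?_⟩
  have h1 := hb τ hτ
  have hi := τ.im_pos
  have h2 := hKb τ.im hi
  have h3 : ‖(τ : ℂ)‖ ≤ |τ.re| + τ.im := by
    have := Complex.norm_le_abs_re_add_abs_im (τ : ℂ)
    simpa [abs_of_pos hi] using this
  have h4 : (1 : ℝ) ≤ Real.exp (c / 2 * τ.im) := by
    apply Real.one_le_exp; positivity
  have h5 : ‖(τ : ℂ)‖ ≤ (1 + K) * (1 + |τ.re|) * Real.exp (c / 2 * τ.im) := by
    have a1 : |τ.re| ≤ (1 + |τ.re|) * Real.exp (c / 2 * τ.im) := by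
      nlinarith [abs_nonneg τ.re]
    have a2 : τ.im ≤ K * (1 + |τ.re|) * Real.exp (c / 2 * τ.im) := by
      calc τ.im ≤ K * 1 * Real.exp (c / 2 * τ.im) := by simpa using h2
        _ ≤ _ := by gcongr; linarith [abs_nonneg τ.re]
    calc ‖(τ : ℂ)‖ ≤ |τ.re| + τ.im := h3
      _ ≤ _ := add_le_add a1 a2
      _ = _ := by ring
  calc ‖ψ τ * (τ : ℂ)‖ = ‖ψ τ‖ * ‖(τ : ℂ)‖ := norm_mul _ _
    _ ≤ (C * (1 + |τ.re|) ^ m * Real.exp (-c * τ.im)) *
        ((1 + K) * (1 + |τ.re|) * Real.exp (c / 2 * τ.im)) := by gcongr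
    _ = C * (1 + K) * (1 + |τ.re|) ^ (m + 1) *
        (Real.exp (-c * τ.im) * Real.exp (c / 2 * τ.im)) := by ring
    _ = _ := by
      rw [← Real.exp_add]
      congr 2
      ring

lemma Decays.mul_pow {ψ : ℍ → ℂ} (h : Decays ψ) (j : ℕ) : Decays (fun τ => ψ τ * (τ : ℂ) ^ j) := by
  induction j with
  | zero => simpa using h
  | succ j ih => simpa [pow_succ, mul_assoc] using ih.mul_coe

lemma decays_of_isBigO {ψ : ℍ → ℂ} (h : MDiff ψ) {c : ℝ} (hc : 0 < c)
    (hO : ψ =O[atImInfty] fun τ => Real.exp (-c * τ.im)) : Decays ψ := by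
  obtain ⟨C, hC0, hC⟩ := hO.exists_nonneg
  rw [Asymptotics.isBigOWith_iff] at hC
  obtain ⟨A, hA⟩ := (atImInfty_mem _).mp hC
  refine ⟨h, C, c, max A 1, 0, hc, hC0, by positivity, fun τ hτ => ?_⟩
  have := hA τ ((le_max_left _ _).trans hτ)
  simpa using this

/-- the point `x + i y` of the upper half plane (junk for `y ≤ 0`). -/
def pt (x y : ℝ) : ℍ := ofComplex (x + y * I)

lemma pt_coe {x y : ℝ} (hy : 0 < y) : (pt x y : ℂ) = x + y * I := by
  rw [pt, ofComplex_apply_of_im_pos (by simpa using hy)]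

lemma pt_re {x y : ℝ} (hy : 0 < y) : (pt x y).re = x := by
  have := congrArg Complex.re (pt_coe (x := x) hy)
  simpa using this

lemma pt_im {x y : ℝ} (hy : 0 < y) : (pt x y).im = y := by
  have := congrArg Complex.im (pt_coe (x := x) hy)
  simpa using this

lemma pt_re_im (τ : ℍ) : pt τ.re τ.im = τ := by
  apply UpperHalfPlane.ext
  rw [pt_coe τ.im_pos]
  apply Complex.ext <;> simp

/-- the primitive `∫_{i∞}^z ψ` along a vertical line. -/
def prim (ψ : ℍ → ℂ) (z : ℍ) : ℂ := - ∫ t in Ioi (0:ℝ), ψ (pt z.re (z.im + t)) * I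

lemma continuousOn_pt_vert (x : ℝ) : ContinuousOn (fun y : ℝ => pt x y) (Ioi 0) := by
  intro y hy
  have h1 : ContinuousAt (fun y : ℝ => ((x:ℂ) + y * I)) y := by fun_prop
  have h2 : ContinuousAt ofComplex ((x:ℂ) + y * I) :=
    (mdifferentiableAt_ofComplex (by simpa using hy)).continuousAt
  exact (ContinuousAt.comp (f := fun y : ℝ => ((x:ℂ) + y * I)) h2 h1).continuousWithinAt

lemma Decays.continuous {ψ : ℍ → ℂ} (h : Decays ψ) : Continuous ψ := h.holo.continuous

lemma Decays.integrableOn {ψ : ℍ → ℂ} (h : Decays ψ) (x y : ℝ) (hy : 0 < y) :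
    IntegrableOn (fun t : ℝ => ψ (pt x (y + t))) (Ioi 0) := by
  obtain ⟨C, c, A, m, hc, hC, hA, hb⟩ := h.bound
  have hcont : ContinuousOn (fun t : ℝ => ψ (pt x (y + t))) (Ici 0) := by
    refine h.continuous.comp_continuousOn ?_
    refine (continuousOn_pt_vert x).comp (by fun_prop) ?_
    intro t ht
    simp only [mem_Ici, mem_Ioi] at *
    linarith
  have hn : IntegrableOn (fun t : ℝ => ‖ψ (pt x (y + t))‖) (Ioi 0) := by
    refine integrable_of_isBigO_exp_neg hc hcont.norm ?_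
    refine Asymptotics.IsBigO.of_bound (C * (1 + |x|) ^ m * Real.exp (-c * y)) ?_
    filter_upwards [eventually_ge_atTop A] with t ht
    have hyt : 0 < y + t := by linarith
    have := hb (pt x (y + t)) (by rw [pt_im hyt]; linarith)
    rw [pt_re hyt, pt_im hyt] at this
    rw [norm_norm, Real.norm_of_nonneg (Real.exp_pos _).le]
    refine this.trans_eq ?_
    rw [mul_assoc _ (Real.exp _) (Real.exp _), ← Real.exp_add]
    congr 2
    ring
  refine (integrable_norm_iff ?_).mp hn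
  exact (hcont.mono Ioi_subset_Ici_self).aestronglyMeasurable measurableSet_Ioi

lemma hasDerivAt_vert {F ψ : ℍ → ℂ} (hF : ∀ τ : ℍ, HasDerivAt (F ∘ ofComplex) (ψ τ) (τ : ℂ))
    (x : ℝ) {y : ℝ} (hy : 0 < y) : HasDerivAt (fun y : ℝ => F (pt x y)) (ψ (pt x y) * I) y := by
  have h1 : HasDerivAt (fun y : ℝ => ((x:ℂ) + y * I)) I y := by
    have := ((hasDerivAt_id (y:ℂ)).comp_ofReal.mul_const I).const_add (x:ℂ)
    simpa using this
  have h2 := hF (pt x y)
  rw [pt_coe hy] at h2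
  exact h2.comp y h1

lemma hasDerivAt_horiz {F ψ : ℍ → ℂ} (hF : ∀ τ : ℍ, HasDerivAt (F ∘ ofComplex) (ψ τ) (τ : ℂ))
    (x : ℝ) {y : ℝ} (hy : 0 < y) : HasDerivAt (fun x : ℝ => F (pt x y)) (ψ (pt x y)) x := by
  have h1 : HasDerivAt (fun x : ℝ => ((x:ℂ) + y * I)) 1 x := by
    have := ((hasDerivAt_id (x:ℂ)).comp_ofReal.add_const (y * I))
    simpa using this
  have h2 := hF (pt x y)
  rw [pt_coe hy] at h2
  have h3 := h2.comp x h1
  rw [mul_one] at h3
  exact h3

/-- comparison of a primitive with `prim` : limit along vertical lines. -/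
lemma tendsto_vert {F ψ : ℍ → ℂ} (h : Decays ψ)
    (hF : ∀ τ : ℍ, HasDerivAt (F ∘ ofComplex) (ψ τ) (τ : ℂ)) (z : ℍ) :
    Tendsto (fun T : ℝ => F (pt z.re T)) atTop (𝓝 (F z - prim ψ z)) := by
  have h1 : Tendsto (fun T : ℝ => ∫ t in (0:ℝ)..T, ψ (pt z.re (z.im + t)) * I) atTop
      (𝓝 (∫ t in Ioi (0:ℝ), ψ (pt z.re (z.im + t)) * I)) :=
    intervalIntegral_tendsto_integral_Ioi 0 ((h.integrableOn z.re z.im z.im_pos).mul_const I)
      tendsto_id
  have h2 : ∀ T : ℝ, 0 ≤ T → ∫ t in (0:ℝ)..T, ψ (pt z.re (z.im + t)) * I =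
      F (pt z.re (z.im + T)) - F z := by
    intro T hT
    have := intervalIntegral.integral_eq_sub_of_hasDerivAt (a := (0:ℝ)) (b := T)
      (f := fun t => F (pt z.re (z.im + t))) (f' := fun t => ψ (pt z.re (z.im + t)) * I) ?_ ?_
    · rw [this, add_zero, pt_re_im]
    · intro t ht
      rw [uIcc_of_le hT] at ht
      have ht' : 0 < z.im + t := by linarith [ht.1, z.im_pos]
      have h3 := hasDerivAt_vert hF z.re ht'
      exact HasDerivAt.comp_const_add (f := fun y : ℝ => F (pt z.re y)) z.im t h3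
    · rw [intervalIntegrable_iff_integrableOn_Ioc_of_le hT]
      exact IntegrableOn.mono_set ((h.integrableOn z.re z.im z.im_pos).mul_const I)
        Ioc_subset_Ioi_self
  have h3 : Tendsto (fun T : ℝ => F (pt z.re (z.im + T))) atTop (𝓝 (F z - prim ψ z)) := by
    have := h1.add_const (F z)
    rw [prim, sub_neg_eq_add, add_comm (F z)]
    refine this.congr' ?_
    filter_upwards [eventually_ge_atTop 0] with T hT
    rw [h2 T hT]
    ring
  have h4 : Tendsto (fun T : ℝ => T - z.im) atTop atTop := tendsto_atTop_add_const_right _ _ tendsto_id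
  refine (h3.comp h4).congr fun T => ?_
  simp

lemma tendsto_horiz_diff {F ψ : ℍ → ℂ} (h : Decays ψ)
    (hF : ∀ τ : ℍ, HasDerivAt (F ∘ ofComplex) (ψ τ) (τ : ℂ)) (x x' : ℝ) :
    Tendsto (fun T : ℝ => F (pt x T) - F (pt x' T)) atTop (𝓝 0) := by
  obtain ⟨C, c, A, m, hc, hC, hA, hb⟩ := h.bound
  have key : ∀ T : ℝ, A ≤ T → ‖F (pt x T) - F (pt x' T)‖ ≤
      C * (1 + max |x| |x'|) ^ m * Real.exp (-c * T) * |x - x'| := by
    intro T hT
    have hT0 : 0 < T := by linarith
    have h1 : F (pt x T) - F (pt x' T) = ∫ s in x'..x, ψ (pt s T) := by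
      symm
      refine intervalIntegral.integral_eq_sub_of_hasDerivAt
        (f := fun s => F (pt s T)) (fun s _ => hasDerivAt_horiz hF s hT0) ?_
      refine Continuous.intervalIntegrable ?_ _ _
      refine h.continuous.comp ?_
      rw [continuous_iff_continuousAt]
      intro s
      have h1 : ContinuousAt (fun y : ℝ => ((y:ℂ) + T * I)) s := by fun_prop
      have h2 : ContinuousAt ofComplex ((s:ℂ) + T * I) :=
        (mdifferentiableAt_ofComplex (by simpa using hT0)).continuousAt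
      exact ContinuousAt.comp (f := fun y : ℝ => ((y:ℂ) + T * I)) h2 h1
    rw [h1]
    refine intervalIntegral.norm_integral_le_of_norm_le_const fun s hs => ?_
    have hs' : |s| ≤ max |x| |x'| := by
      have := uIoc_subset_uIcc hs
      rw [mem_uIcc] at this
      rcases this with ⟨h1, h2⟩ | ⟨h1, h2⟩
      · rw [max_comm]; exact abs_le_max_abs_abs h1 h2
      · exact abs_le_max_abs_abs h1 h2
    have h2 := hb (pt s T) (by rw [pt_im hT0]; exact hT)
    rw [pt_im hT0, pt_re hT0] at h2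
    refine h2.trans ?_
    gcongr
  have h0 : Tendsto (fun T : ℝ => C * (1 + max |x| |x'|) ^ m * Real.exp (-c * T) * |x - x'|)
      atTop (𝓝 0) := by
    have : Tendsto (fun T : ℝ => Real.exp (-c * T)) atTop (𝓝 0) := by
      have h1 : Tendsto (fun T : ℝ => c * T) atTop atTop := tendsto_id.const_mul_atTop hc
      have := Real.tendsto_exp_neg_atTop_nhds_zero.comp h1
      simpa [Function.comp_def, neg_mul] using this
    have := (this.const_mul (C * (1 + max |x| |x'|) ^ m)).mul_const |x - x'|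
    simpa using this
  refine squeeze_zero_norm' ?_ h0
  filter_upwards [eventually_ge_atTop A] with T hT using key T hT

lemma sub_prim_const {F ψ : ℍ → ℂ} (h : Decays ψ)
    (hF : ∀ τ : ℍ, HasDerivAt (F ∘ ofComplex) (ψ τ) (τ : ℂ)) (z z' : ℍ) :
    F z - prim ψ z = F z' - prim ψ z' := by
  have h1 := tendsto_vert h hF z
  have h2 := tendsto_vert h hF z'
  have h3 := tendsto_horiz_diff h hF z.re z'.re
  have h4 := tendsto_nhds_unique h3 (h1.sub h2)
  exact (sub_eq_zero.mp h4.symm)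

lemma hasDerivAt_prim {ψ : ℍ → ℂ} (h : Decays ψ) (τ : ℍ) :
    HasDerivAt (prim ψ ∘ ofComplex) (ψ τ) (τ : ℂ) := by
  obtain ⟨F, hF⟩ := exists_primitive h.holo
  have : prim ψ = fun z => F z - (F UpperHalfPlane.I - prim ψ UpperHalfPlane.I) := by
    funext z
    rw [← sub_prim_const h hF z UpperHalfPlane.I]
    ring
  rw [this]
  exact (hF τ).sub_const _

/-- vertical limit of `prim ψ` is zero. -/
lemma tendsto_prim_vert {ψ : ℍ → ℂ} (h : Decays ψ) (x : ℝ) :
    Tendsto (fun T : ℝ => prim ψ (pt x T)) atTop (𝓝 0) := by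
  have := tendsto_vert h (hasDerivAt_prim h) (pt x 1)
  rw [pt_re one_pos, sub_self] at this
  exact this

/-- uniqueness of primitives with vertical limit `0`. -/
lemma eq_prim {F ψ : ℍ → ℂ} (h : Decays ψ)
    (hF : ∀ τ : ℍ, HasDerivAt (F ∘ ofComplex) (ψ τ) (τ : ℂ)) {x : ℝ}
    (hlim : Tendsto (fun T : ℝ => F (pt x T)) atTop (𝓝 0)) : F = prim ψ := by
  funext z
  have h1 := tendsto_vert h hF (pt x 1)
  rw [pt_re one_pos] at h1
  have h2 := tendsto_nhds_unique hlim h1
  have h3 := sub_prim_const h hF z (pt x 1)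
  rw [← h2, sub_eq_zero] at h3
  exact h3

/-- primitives differ by a constant. -/
lemma sub_prim_eq {F ψ : ℍ → ℂ} (h : Decays ψ)
    (hF : ∀ τ : ℍ, HasDerivAt (F ∘ ofComplex) (ψ τ) (τ : ℂ)) (z : ℍ) :
    F z = prim ψ z + (F UpperHalfPlane.I - prim ψ UpperHalfPlane.I) := by
  have h3 := sub_prim_const h hF z UpperHalfPlane.I
  rw [← h3]; ring

lemma prim_add {ψ φ : ℍ → ℂ} (h : Decays ψ) (h' : Decays φ) :
    prim (ψ + φ) = prim ψ + prim φ := by
  symm
  refine eq_prim (h.add h') (fun τ => (hasDerivAt_prim h τ).add (hasDerivAt_prim h' τ)) (x := 0) ?_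
  simpa using (tendsto_prim_vert h 0).add (tendsto_prim_vert h' 0)

lemma prim_const_smul {ψ : ℍ → ℂ} (a : ℂ) :
    prim (a • ψ) = a • prim ψ := by
  funext z
  simp only [prim, Pi.smul_apply, smul_eq_mul, mul_assoc, integral_const_mul]
  ring

lemma prim_zero : prim 0 = 0 := by
  funext z
  simp [prim]

lemma Decays.sum {ι : Type*} (s : Finset ι) {ψ : ι → ℍ → ℂ} (h : ∀ i ∈ s, Decays (ψ i)) :
    Decays (∑ i ∈ s, ψ i) := by
  classical
  induction s using Finset.induction_on with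
  | empty => simpa using Decays.zero
  | insert i s hi ih =>
    rw [Finset.sum_insert hi]
    exact (h i (Finset.mem_insert_self _ _)).add (ih fun j hj => h j (Finset.mem_insert_of_mem hj))

lemma prim_sum {ι : Type*} (s : Finset ι) {ψ : ι → ℍ → ℂ} (h : ∀ i ∈ s, Decays (ψ i)) :
    prim (∑ i ∈ s, ψ i) = ∑ i ∈ s, prim (ψ i) := by
  classical
  induction s using Finset.induction_on with
  | empty => simpa using prim_zero
  | insert i s hi ih =>
    rw [Finset.sum_insert hi, Finset.sum_insert hi, prim_add, ih]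
    · exact fun j hj => h j (Finset.mem_insert_of_mem hj)
    · exact h i (Finset.mem_insert_self _ _)
    · exact Decays.sum s fun j hj => h j (Finset.mem_insert_of_mem hj)

/-- The basic estimate. -/
lemma norm_prim_le {ψ : ℍ → ℂ} {C c : ℝ} (z : ℍ) (hc : 0 < c)
    (hb : ∀ t : ℝ, 0 < t → ‖ψ (pt z.re (z.im + t))‖ ≤ C * Real.exp (-c * (z.im + t))) :
    ‖prim ψ z‖ ≤ C / c * Real.exp (-c * z.im) := by
  rw [prim, norm_neg]
  have h1 : IntegrableOn (fun t : ℝ => C * Real.exp (-c * z.im) * Real.exp (-c * t)) (Ioi 0) :=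
    (integrableOn_exp_mul_Ioi (by linarith) 0).const_mul _
  have h2 : ‖∫ t in Ioi (0:ℝ), ψ (pt z.re (z.im + t)) * I‖ ≤
      ∫ t in Ioi (0:ℝ), C * Real.exp (-c * z.im) * Real.exp (-c * t) := by
    refine norm_integral_le_of_norm_le h1 ?_
    filter_upwards [ae_restrict_mem measurableSet_Ioi] with t ht
    rw [norm_mul, Complex.norm_I, mul_one, mul_assoc, ← Real.exp_add]
    convert hb t ht using 3
    ring
  refine h2.trans_eq ?_
  rw [integral_const_mul, integral_exp_mul_Ioi (by linarith)]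
  simp
  field_simp

lemma Decays.prim {ψ : ℍ → ℂ} (h : Decays ψ) : Decays (prim ψ) := by
  obtain ⟨C, c, A, m, hc, hC, hA, hb⟩ := h.bound
  refine ⟨?_, C / c, c, A, m, hc, by positivity, hA, fun τ hτ => ?_⟩
  · rw [mdifferentiable_iff]
    intro z hz
    exact (hasDerivAt_prim h ⟨z, hz⟩).differentiableAt.differentiableWithinAt
  · have := norm_prim_le (ψ := ψ) (C := C * (1 + |τ.re|) ^ m) τ hc fun t ht => ?_
    · refine this.trans_eq ?_
      ring
    · have hpos : 0 < τ.im + t := by linarith [τ.im_pos]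
      have h1 := hb (pt τ.re (τ.im + t)) (by rw [pt_im hpos]; linarith)
      rwa [pt_re hpos, pt_im hpos] at h1

end

end Fermat.Agent.Period
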